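import Fermat.Agent.S36.Nodal.Conc
import Fermat.Agent.S36.Geo.HB.Boundary
import Fermat.Agent.S36.Geo.HGenus
import Fermat.Agent.S36.Geo.HIndep

/-!
# S36/Nodal/Hor : the facts on the horizontal components (`HorFacts`) from the equation of `H_e`

INPUT (`HorInput`): for every `e ∈ SS`: scales, the restriction of `Vhor e` to the middle copy is the Gauss point of the disc, the residue field is `k(a,b)`, `a b (b-a)^(q-1) = c`, and
the reduction of `y_e = xe e / ρ` is `a^q + c/a`.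
OUTPUT: `HorFacts C Vhor`.
-/

set_option autoImplicit false
set_option linter.unusedSectionVars false

noncomputable section

namespace Fermat.Agent.S36.Nodal

open AlgebraicCurve ModularCurve Fermat.Agent.S24 Fermat.Agent.GAL
  Fermat.Agent.GAL.RED Fermat.Agent.GAL.Gauss Fermat.Agent.DR.Abs Fermat.Agent.DR.Conc
  Fermat.Agent.S36.Abs Fermat.Agent.S36.Norm Fermat.Agent.S36.Val Fermat.Agent.S36.Geo
  Fermat.Agent.S36.E Fermat.Agent.S36.Kron IntermediateField

section curve

variable {k Fb : Type*} [Field k] [Field Fb] [Algebra k Fb] [IsAlgClosed k] [Lib.RR.IsFF k Fb]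

/-- **(H0)** `[Fb : k(y)] ≤ deg (y)_∞`.
PROOF. `β := Module.finBasis k⟮y⟯ Fb` (if `Fb` is not finite over `k⟮y⟯` then `finrank = 0` and the statement is `degree_nonneg`; or assume finiteness from `Module.finite_of_finrank_pos`).
`PolyIndep k y β`: if `∑ aeval y (p i) * β i = 0` then, with `cᵢ := aeval (AdjoinSimple.gen k y) (p i) : k⟮y⟯`, `∑ cᵢ • β i = 0`, so `cᵢ = 0`, so `aeval y (p i) = 0`, so `p i = 0` (`hy : Transcendental k y`,
`transcendental_iff`).  `RED.card_le_degree_poleDiv`. -/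
theorem finrank_adjoin_le_degree_poleDiv (y : Fb) (hy : Transcendental k y) :
    (Module.finrank k⟮y⟯ Fb : ℤ) ≤ Divisor.degree (poleDiv (K := k) y) := by
  classical
  by_cases hfin : Module.Finite k⟮y⟯ Fb
  · let β := Module.finBasis k⟮y⟯ Fb
    refine RED.card_le_degree_poleDiv y (fun i => β i) ?_
    intro p hp
    have hmap : ∀ i, algebraMap k⟮y⟯ Fb (Polynomial.aeval (AdjoinSimple.gen k y) (p i)) =
        Polynomial.aeval y (p i) := by
      intro i
      rw [← Polynomial.aeval_algebraMap_apply, AdjoinSimple.algebraMap_gen]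
    have h1 : ∑ i, (Polynomial.aeval (AdjoinSimple.gen k y) (p i)) • β i = 0 := by
      rw [← hp]
      refine Finset.sum_congr rfl fun i _ => ?_
      rw [Algebra.smul_def, hmap]
    have h2 := (Fintype.linearIndependent_iff.1 β.linearIndependent) _ h1
    funext i
    have h4 : Polynomial.aeval y (p i) = 0 := by
      rw [← hmap, h2 i, map_zero]
    exact (transcendental_iff.1 hy) _ h4
  · rw [Module.finrank_of_not_finite hfin]
    exact Lib.RR.degree_nonneg (RED.poleDegLe_poleDiv_nonneg (K := k) y)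

theorem NodalHor1_ord_add_nonneg (P : Place k Fb) (γ : k) {u X : Fb} (hu : u ≠ 0)
    (hP : 0 ≤ P.ord u) (hX : X = algebraMap k Fb γ + u) : 0 ≤ P.ord X := by
  by_cases hX0 : X = 0
  · rw [hX0, P.ord_zero]
  · have h1 := RED.min_le_ord_add P (f := algebraMap k Fb γ) (g := u) (by rw [← hX]; exact hX0)
    rw [HPlaces_ord_const, ← hX] at h1
    exact le_trans (le_min le_rfl hP) h1

variable {q : ℕ} [Fact q.Prime] [CharP k q] {c : k} {a b : Fb}

/-- **(H1)** the numerical facts on the curve `a b (b-a)^(q-1) = c`.  `X = γ + ε / y`, `G = ε' y`.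
PROOF. `y := h.y` is transcendental (it has a pole: `card_boundary` shows that the set of poles is non empty; or `h.finrank_y hgen` + `trans`...; see `HIndep.lean`, there should be `h.trans_y`), `y ≠ 0`.
`X = algebraMap γ + algebraMap ε * y⁻¹`.  For every place `P`: `ord_P X < 0 ↔ 0 < ord_P y`, and then `ord_P X = - ord_P y`; so `poleDiv X = poleDiv y⁻¹` (`ext P`, `poleDiv_apply`; cases on the sign of `ord_P y`,
`Place.ord_add_eq_of_lt`-type lemmas, `ord_algebraMap`), `degree_poleDiv_inv` (`DR/Abs/Bipole.lean`), (H0), `h.finrank_y hgen`.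
`B := ` the finite set `{w | w.ord y < 0}` (`h.finite_boundary hgen`, `Set.Finite.toFinset` / `Set.toFinset` with `Fintype.ofFinite`), `#B = 2 + g2 q` (`h.card_boundary hgen`, `Nat.card_eq_fintype_card`).
At `w ∈ B`: `ord_w G = ord_w y < 0` (`ord_mul`, `ord_algebraMap`), `ord_w (ε / y) > 0`, so `0 ≤ ord_w X`.
`h.genus_ge hgen : q - 1 ≤ 2 g`; `g2 q = 2` if `q ≠ 2` (then `2 + 2 + (q - 1) - 2 = q + 1`), `g2 2 = 1` and `g ≥ 1` (then `3 + 2 g - 2 ≥ 3`): `unfold g2; split_ifs; omega`. -/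
theorem horNum (h : IsHCurve k q c a b) (hgen : k⟮a, b⟯ = ⊤) {X G : Fb} {γ ε ε' : k}
    (hε : ε ≠ 0) (hε' : ε' ≠ 0) (hX : (X - algebraMap k Fb γ) * h.y = algebraMap k Fb ε)
    (hG : G = algebraMap k Fb ε' * h.y) :
    ((q * (q + 1) : ℕ) : ℤ) ≤ Divisor.degree (poleDiv (K := k) X) ∧
      ∃ B : Finset (Place k Fb), (∀ P ∈ B, 0 ≤ P.ord X ∧ P.ord G < 0) ∧
        ((q + 1 : ℕ) : ℤ) ≤ (B.card : ℤ) + 2 * ((genusFF k Fb : ℤ) - 1) := by
  classical
  have hty := h.trans_y
  have hy0 : h.y ≠ 0 := by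
    intro h0
    apply hty
    rw [h0]
    exact isAlgebraic_zero
  have hεF : algebraMap k Fb ε ≠ 0 := by
    rw [Ne, map_eq_zero_iff _ (algebraMap k Fb).injective]
    exact hε
  have hε'F : algebraMap k Fb ε' ≠ 0 := by
    rw [Ne, map_eq_zero_iff _ (algebraMap k Fb).injective]
    exact hε'
  have hXe : X = algebraMap k Fb γ + algebraMap k Fb ε * h.y⁻¹ := by
    rw [← hX]
    field_simp
    ring
  have hu0 : algebraMap k Fb ε * h.y⁻¹ ≠ 0 := mul_ne_zero hεF (inv_ne_zero hy0)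
  have hordu : ∀ P : Place k Fb, P.ord (algebraMap k Fb ε * h.y⁻¹) = -P.ord h.y := by
    intro P
    rw [P.ord_mul hεF (inv_ne_zero hy0), HPlaces_ord_const, P.ord_inv, zero_add]
  have hpos : ∀ P : Place k Fb, P.ord h.y ≤ 0 → 0 ≤ P.ord X := by
    intro P hP
    exact NodalHor1_ord_add_nonneg P γ hu0 (by rw [hordu]; omega) hXe
  have hneg : ∀ P : Place k Fb, 0 < P.ord h.y → P.ord X = -P.ord h.y := by
    intro P hP
    rw [hXe, add_comm]
    by_cases hγ : algebraMap k Fb γ = 0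
    · rw [hγ, add_zero, hordu]
    · rw [HPlaces_ord_add_eq_of_lt P hu0 hγ (by rw [hordu, HPlaces_ord_const]; omega), hordu]
  have hpd : poleDiv (K := k) X = poleDiv (K := k) h.y⁻¹ := by
    ext P
    rw [poleDiv_apply, poleDiv_apply, P.ord_inv]
    rcases le_or_gt (P.ord h.y) 0 with hP | hP
    · have := hpos P hP
      omega
    · rw [hneg P hP]
  refine ⟨?_, ?_⟩
  · rw [hpd, DR.Abs.degree_poleDiv_inv hy0, ← h.finrank_y hgen]
    exact finrank_adjoin_le_degree_poleDiv h.y hty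
  · have hfinB : {w : Place k Fb | w.ord h.y < 0}.Finite := h.finite_boundary hgen
    refine ⟨hfinB.toFinset, ?_, ?_⟩
    · intro P hP
      rw [Set.Finite.mem_toFinset] at hP
      have hP' : P.ord h.y < 0 := hP
      refine ⟨hpos P hP'.le, ?_⟩
      rw [hG, P.ord_mul hε'F hy0, HPlaces_ord_const, zero_add]
      exact hP'
    · have hcard : hfinB.toFinset.card = 2 + IsHCurve.g2 q := by
        rw [← h.card_boundary hgen, ← Set.ncard_eq_toFinset_card _ hfinB]
        exact (_root_.Nat.card_coe_set_eq _).symm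
      have hg := h.genus_ge hgen
      have hq2 : 2 ≤ q := (Fact.out : q.Prime).two_le
      rw [hcard]
      unfold IsHCurve.g2
      split_ifs with hq
      · subst hq
        push_cast
        push_cast at hg
        omega
      · push_cast
        omega

end curve

attribute [local instance] algMid

variable {S : Setup} (C : Coord (RS S)) (Vhor : ↥C.SS → ValOver S.A S.F2)

/-- `y_e = xe e / ρ`, in `F2` (middle copy). -/
def yF (e : ↥C.SS) : S.F2 :=
  algebraMap (FN S.M) S.F2 ((algebraMap Kbar (FN S.M) C.ρ)⁻¹ * C.xe e.1)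

/-- **The input on the horizontal components** (KRON + GEO-H). -/
structure HorInput : Prop where
  scales : ∀ e : ↥C.SS, ∀ w : S.F2, w ≠ 0 →
    ∃ a : Kbar, a ≠ 0 ∧ ((stT S Vhor).R (.hor e)).red (a • w) ≠ 0
  val : ∀ e : ↥C.SS, IsDiscVal (RS S) C.r e.1 (C.xe e.1) C.ρ
    ((Vhor e).O.comap (algebraMap (FN S.M) S.F2))
  curve : ∀ e : ↥C.SS, ∃ (c : S.k) (a b : stFb S Vhor (.hor e)), IsHCurve S.k S.q c a b ∧
    S.k⟮a, b⟯ = ⊤ ∧ ((stT S Vhor).R (.hor e)).red (yF C e) =
      a ^ S.q + algebraMap S.k (stFb S Vhor (.hor e)) c / a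

/-- a non unit of the restriction reduces to `0`. -/
theorem NodalHor2_red_eq_zero {K E F k Fb' : Type*} [Field K] [Field E] [Field F] [Algebra K F]
    [Algebra E F] [Field k] [Field Fb'] [Algebra k Fb'] (R' : RedData K F k Fb') {u : E}
    (hu : u ∈ (R'.O.comap (algebraMap E F)).nonunits) :
    algebraMap E F u ∈ R'.O ∧ R'.red (algebraMap E F u) = 0 := by
  rw [mem_nonunits_comap_iff, ValuationSubring.mem_nonunits_iff] at hu
  have h1 : algebraMap E F u ∈ R'.O := (R'.O.valuation_le_one_iff _).1 hu.le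
  exact ⟨h1, (R'.red_eq_zero_iff h1).2 hu⟩

/-- a unit of `A` has a nonzero reduction. -/
theorem NodalHor2_redA_ne_zero {K F k Fb' : Type*} [Field K] [Field F] [Algebra K F]
    [Field k] [Field Fb'] [Algebra k Fb'] (R' : RedData K F k Fb') {ε : K} (h1 : ε ∈ R'.A)
    (h2 : ε ∉ R'.A.nonunits) : R'.redA ε ≠ 0 := by
  rw [R'.redA_ne_zero_iff_valuation]
  rw [ValuationSubring.mem_nonunits_iff, not_lt] at h2
  exact le_antisymm ((R'.A.valuation_le_one_iff _).2 h1) h2

/-- abstract version of (H2). -/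
theorem NodalHor2_abs {K E F k Fb' : Type*} [Field K] [Field E] [Field F] [Algebra K E] [Algebra K F]
    [Algebra E F] [IsScalarTower K E F] [Field k] [Field Fb'] [Algebra k Fb']
    (R' : RedData K F k Fb') {x y G : E} {γ ε ε' : K} (hγ : γ ∈ R'.A) (hε : ε ∈ R'.A)
    (hε' : ε' ∈ R'.A) (hx : algebraMap E F x ∈ R'.O) (hy : algebraMap E F y ∈ R'.O)
    (h1 : (x - algebraMap K E γ) * y - algebraMap K E ε ∈ (R'.O.comap (algebraMap E F)).nonunits)
    (h2 : G - algebraMap K E ε' * y ∈ (R'.O.comap (algebraMap E F)).nonunits) :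
    (R'.red (algebraMap E F x) - algebraMap k Fb' (R'.redA γ)) * R'.red (algebraMap E F y) =
        algebraMap k Fb' (R'.redA ε) ∧
      R'.red (algebraMap E F G) = algebraMap k Fb' (R'.redA ε') * R'.red (algebraMap E F y) := by
  obtain ⟨h1m, h1r⟩ := NodalHor2_red_eq_zero R' h1
  obtain ⟨h2m, h2r⟩ := NodalHor2_red_eq_zero R' h2
  have hc : ∀ c : K, algebraMap E F (algebraMap K E c) = algebraMap K F c := fun c =>
    (IsScalarTower.algebraMap_apply K E F c).symm
  have hγO := R'.algebraMap_mem γ hγ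
  have hεO := R'.algebraMap_mem ε hε
  have hε'O := R'.algebraMap_mem ε' hε'
  rw [map_sub, map_mul, map_sub, hc, hc] at h1m h1r
  rw [map_sub, map_mul, hc] at h2m h2r
  constructor
  · rw [R'.red_sub (R'.O.mul_mem _ _ (R'.O.sub_mem hx hγO) hy) hεO,
      R'.red_mul (R'.O.sub_mem hx hγO) hy, R'.red_sub hx hγO, R'.red_algebraMap hγ,
      R'.red_algebraMap hε, sub_eq_zero] at h1r
    exact h1r
  · have hG : algebraMap E F G ∈ R'.O := by
      have := R'.O.add_mem _ _ h2m (R'.O.mul_mem _ _ hε'O hy)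
      rwa [sub_add_cancel] at this
    rw [R'.red_sub hG (R'.O.mul_mem _ _ hε'O hy), R'.red_mul hε'O hy, R'.red_algebraMap hε',
      sub_eq_zero] at h2r
    exact h2r

theorem NodalHor2_O (e : ↥C.SS) : ((stT S Vhor).R (.hor e)).O = (Vhor e).O := rfl

theorem NodalHor2_A (e : ↥C.SS) : ((stT S Vhor).R (.hor e)).A = S.A := rfl

/-- **(H2)** the reductions of `x` and of `G₀/ρ` on `H_e`.
PROOF. `O := (Vhor e).O.comap (algebraMap ..)`, `R' := (stT S Vhor).R (.hor e)` (`R'.O = (Vhor e).O` by `rfl`; `R'.A = S.A`, and `(RS S).A = S.A` by `gaussRedData'_A`, cf. `semiHyp_st` in `Main.lean`).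
`IsCoord.coord_disc C.redMap C.hyp C.isCoord e.2 hval` gives `γ, ε ∈ A`, `ε` a unit, `(x₁ - γ) y - ε ∈ O.nonunits`; `IsCoord.G_disc` gives `ε'`, `G₀/ρ - ε' y ∈ O.nonunits`.
An element `u` of `E` with `u ∈ O.nonunits` satisfies `R'.red (algebraMap u) = 0` (`mem_nonunits_comap_iff` in `S36/Val`, `ValOver.red_eq_zero_iff` / `RedData.red_eq_zero_iff`).
`x₁ ∈ O`, `y ∈ O` (`IsDiscVal.y_mem`), constants in `A` are in `O`; expand with `RedData.red_sub`, `red_mul`, `red_algebraMap` (`IsScalarTower.algebraMap_apply Kbar (FN S.M) S.F2`).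
The constants: `γ̄ := R'.redA γ` etc.; `R'.redA ε ≠ 0` since `ε` is a unit of `A` (`RedData.redA`-lemmas; `IsLocalRing.residue_eq_zero_iff`). -/
theorem red_hor (e : ↥C.SS)
    (hval : IsDiscVal (RS S) C.r e.1 (C.xe e.1) C.ρ ((Vhor e).O.comap (algebraMap (FN S.M) S.F2))) :
    ∃ γ ε ε' : S.k, ε ≠ 0 ∧ ε' ≠ 0 ∧
      (((stT S Vhor).R (.hor e)).red (C.xF S.F2) - algebraMap S.k (stFb S Vhor (.hor e)) γ) *
          ((stT S Vhor).R (.hor e)).red (yF C e) = algebraMap S.k (stFb S Vhor (.hor e)) ε ∧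
      ((stT S Vhor).R (.hor e)).red (C.GF S.F2) =
        algebraMap S.k (stFb S Vhor (.hor e)) ε' * ((stT S Vhor).R (.hor e)).red (yF C e) := by
  have hA : (RS S).A = S.A := gaussRedData'_A S.A S.M _ _ _
  have hO := NodalHor2_O C Vhor e
  have hA' := NodalHor2_A C Vhor e
  generalize (stT S Vhor).R (.hor e) = R' at hO hA' ⊢
  rw [← hO] at hval
  obtain ⟨hx, γ, hγ, ε, hε, hεu, h1⟩ := C.isCoord.coord_disc C.redMap C.hyp e.2 hval
  obtain ⟨ε', hε', hε'u, h2⟩ := C.isCoord.G_disc C.redMap C.hyp e.2 hval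
  rw [hA, ← hA'] at hγ hε hεu hε' hε'u
  have : IsScalarTower Kbar (FN S.M) S.F2 := isScalarTower_along (Kron.mid S.M S.q)
  have hy := hval.y_mem
  rw [ValuationSubring.mem_comap] at hx hy
  obtain ⟨h3, h4⟩ := NodalHor2_abs R' hγ hε hε' hx hy h1 h2
  unfold Coord.xF Coord.GF yF
  exact ⟨_, _, _, NodalHor2_redA_ne_zero R' hε hεu, NodalHor2_redA_ne_zero R' hε' hε'u, h3, h4⟩

theorem horFacts_of_input [∀ i, Lib.RR.IsFF S.k (stFb S Vhor i)] (h : HorInput C Vhor) :
    HorFacts C Vhor where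
  scales := h.scales
  val := h.val
  deg := fun e => by
    obtain ⟨c, a, b, hc, hgen, hy⟩ := h.curve e
    obtain ⟨γ, ε, ε', hε, hε', hX, hG⟩ := red_hor C Vhor e (h.val e)
    rw [hy] at hX hG
    exact (horNum hc hgen hε hε' hX hG).1
  num := fun e => by
    obtain ⟨c, a, b, hc, hgen, hy⟩ := h.curve e
    obtain ⟨γ, ε, ε', hε, hε', hX, hG⟩ := red_hor C Vhor e (h.val e)
    rw [hy] at hX hG
    exact (horNum hc hgen hε hε' hX hG).2

end Fermat.Agent.S36.Nodal
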