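import Fermat.Agent.S36.Nodal.Semi
import Fermat.Agent.S36.E.Symm.Big
import Fermat.Agent.S36.Kron.HeckePolyInt
import Fermat.Agent.S36.Geo.Num
import Fermat.Agent.DR.Conc.Frob
import Fermat.Agent.S36.StepA.BigConc

/-!
# S36/Nodal/Conc : the stable fibre of `X₀(M q²)` is pre-nodal (concrete level)

`S : Geo.Setup`, `E = FN M`, `F = F2 = FN (M q q)`, `E → F` the MIDDLE copy `Kron.mid` (`f(t) ↦ f(t^q)`), `R = RS S` the Gauss reduction of `FN M`, `T = E.stT S Vhor`.
We check the hypotheses `SemiHyp` of `S36/Nodal/Semi.lean`.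
-/

set_option autoImplicit false
set_option linter.unusedSectionVars false

noncomputable section

namespace Fermat.Agent.S36.Nodal

open AlgebraicCurve ModularCurve Fermat.Agent.S24 Fermat.Agent.GAL
  Fermat.Agent.GAL.RED Fermat.Agent.GAL.Gauss Fermat.Agent.DR.Abs Fermat.Agent.DR.Conc
  Fermat.Agent.S36.Abs Fermat.Agent.S36.Norm Fermat.Agent.S36.Val Fermat.Agent.S36.Geo
  Fermat.Agent.S36.E Fermat.Agent.S36.Kron

variable (S : Setup)

instance instFactS : Fact S.q.Prime := ⟨S.hq⟩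
instance instCharPS : CharP S.k S.q := Fermat.Agent.GAL.Hecke.charP_residueField S.A S.hq S.hA
instance instIsAlgClosedS : IsAlgClosed S.k := Fermat.Agent.GAL.Igusa.isAlgClosed_residueField S.A

theorem natCast_M_ne : ((S.M : ℕ) : S.k) ≠ 0 := natCast_M_ne_zero S.A S.M S.q S.hq S.hqM S.hA

instance instIsFFES : Lib.RR.IsFF S.k (Igusa.E S.k S.M) := Igusa.isFF_E S.k S.M (natCast_M_ne S)

/-- the Gauss reduction at level `M`. -/
abbrev RS : RedData Kbar (FN S.M) S.k (Igusa.E S.k S.M) := RMq S.A S.M S.q S.hq S.hqM S.hA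

/-- `F2` as an extension of `FN M` by the middle copy. -/
@[reducible] def algMid : Algebra (FN S.M) S.F2 := algebraAlong (Kron.mid S.M S.q)

/-- the horizontal components. -/
def IsHor {SS J : Type} : Comp SS J → Prop
  | .hor _ => True
  | _ => False

/-- the action of the coefficientwise Frobenius on the places of `E k M`. -/
def frPerm : Equiv.Perm (Place S.k (Igusa.E S.k S.M)) := MulAction.toPerm (Fr S.k S.M S.q)

theorem ord_Phi_S (P : Place S.k (Igusa.E S.k S.M)) (u : Igusa.E S.k S.M) :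
    P.ord (Phi S.k S.M S.q u) = S.q * (frPerm S P).ord u := ord_Phi S.k S.M S.q P u


attribute [local instance] algMid

instance instTowerMid : IsScalarTower Kbar (FN S.M) S.F2 := isScalarTower_along (Kron.mid S.M S.q)

theorem algebraMap_mid (y : FN S.M) : algebraMap (FN S.M) S.F2 y = Kron.mid S.M S.q y := rfl

variable {S}
variable (C : Coord (RS S)) (Vhor : ↥C.SS → ValOver S.A S.F2)

/-- the point of `SS` under a horizontal component. -/
def heOf : Comp ↥C.SS S.MidIdx → Place S.k (Igusa.E S.k S.M)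
  | .hor e => e.1
  | _ => C.ne.choose

open Classical in
/-- **What is needed on the big components** (block SEPDEG, helper80). -/
structure BigFacts
    (θ : ∀ i : Comp ↥C.SS S.MidIdx, ¬ IsHor i → (Igusa.E S.k S.M →ₐ[S.k] stFb S Vhor i)) : Prop where
  scales : ∀ i, ¬ IsHor i → ∀ w : S.F2, w ≠ 0 →
    ∃ a : Kbar, a ≠ 0 ∧ ((stT S Vhor).R i).red (a • w) ≠ 0
  comap : ∀ i, ¬ IsHor i → ((stT S Vhor).R i).O.comap (algebraMap (FN S.M) S.F2) = (RS S).O
  red : ∀ i (hi : ¬ IsHor i), ∀ y ∈ (RS S).O,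
    ((stT S Vhor).R i).red (algebraMap (FN S.M) S.F2 y) = θ i hi (Phi S.k S.M S.q ((RS S).red y))
  inc : ∀ i i', ¬ IsHor i → ¬ IsHor i' → i ≠ i' →
    ∃ t ∈ ((stT S Vhor).R i).O, t ∉ ((stT S Vhor).R i').O
  fin : ∀ i (hi : ¬ IsHor i), FiniteAlong S.k (θ i hi)
  sum : S.q + 1 ≤ ∑ i, if hi : IsHor i then 0 else finrankAlong S.k (θ i hi)

/-- **What is needed on the horizontal components** (GEO-H, helper74; scales: helper96). -/
structure HorFacts [∀ i, Lib.RR.IsFF S.k (stFb S Vhor i)] : Prop where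
  scales : ∀ e : ↥C.SS, ∀ w : S.F2, w ≠ 0 →
    ∃ a : Kbar, a ≠ 0 ∧ ((stT S Vhor).R (.hor e)).red (a • w) ≠ 0
  val : ∀ e : ↥C.SS, IsDiscVal (RS S) C.r e.1 (C.xe e.1) C.ρ
    ((Vhor e).O.comap (algebraMap (FN S.M) S.F2))
  deg : ∀ e : ↥C.SS, ((S.q * (S.q + 1) : ℕ) : ℤ) ≤
    Divisor.degree (poleDiv (K := S.k) (((stT S Vhor).R (.hor e)).red (C.xF S.F2)))
  num : ∀ e : ↥C.SS, ∃ B : Finset (Place S.k (stFb S Vhor (.hor e))),
    (∀ P ∈ B, 0 ≤ P.ord (((stT S Vhor).R (.hor e)).red (C.xF S.F2)) ∧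
      P.ord (((stT S Vhor).R (.hor e)).red (C.GF S.F2)) < 0) ∧
      ((S.q + 1 : ℕ) : ℤ) ≤ (B.card : ℤ) + 2 * ((genusFF S.k (stFb S Vhor (.hor e)) : ℤ) - 1)

end Fermat.Agent.S36.Nodal
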