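import Fermat.Agent.S36.Abs.Cluster
import Fermat.Agent.S36.Abs.LyingOver.Main

/-!
# S36/Nodal/Abs : two kinds of components, glued along the poles of two functions  ==>  `IsPreNodal`

`T` a finite family of reductions of `F`; the components are of two kinds, "horizontal" (`hor i`) and "big" (`¬ hor i`).
`x` a coordinate with `deg (x)_∞ = ∑ deg (x̄ᵢ)_∞`.  `Qm`, `Gm : F` regular outside the poles of `x`, `ρ ∈ 𝔪_A`, such that
* on the big components: `Qm` is integral, `ρ Gm` is integral, `Gm` is not integral;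
* on the horizontal components: `Gm` is integral, `ρ Qm` is integral, `Qm` is not integral, and `red (ρ Qm) * red Gm` is a non zero constant.
BRANCHES (`IsBr`): the finite poles of `red Qm` on the big components, the finite poles of `red Gm` on the horizontal components.
* every big branch is glued to a horizontal branch (`partner_of_big`), and conversely (`partner_of_hor`);
* if there are enough branches (`hnum`), the clusters are pairs and the reduction is nodal (`NodalHyp.main`).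
-/

set_option autoImplicit false

namespace Fermat.Agent.S36.Nodal

open AlgebraicCurve Fermat.Agent.Lib.RR Fermat.Agent.GAL.RED Fermat.Agent.DR.Abs Fermat.Agent.S36.Abs

variable {K F k : Type} [Field K] [Field F] [Algebra K F] [Field k] {ι : Type}
  {Fb : ι → Type} [∀ i, Field (Fb i)] [∀ i, Algebra k (Fb i)]

/-- The hypotheses. -/
structure NodalHyp [HasPrincipalDivisors K F] [∀ i, HasPrincipalDivisors k (Fb i)] [Fintype ι]
    (T : MultiRed K F k Fb) (hor : ι → Prop) (x Qm Gm : F) (ρ : K) : Prop where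
  sep : T.Sep
  scales : HasScales T
  rankOne : RankOne T
  nonconst : ∀ i, (T.R i).red x ∉ Set.range (algebraMap k (Fb i))
  deg : Divisor.degree (poleDiv (K := K) x) = ∑ i, Divisor.degree (poleDiv (K := k) ((T.R i).red x))
  Q_reg : ∃ a : ℕ, Qm ∈ riemannRochSpace (a • poleDiv (K := K) x)
  G_reg : ∃ a : ℕ, Gm ∈ riemannRochSpace (a • poleDiv (K := K) x)
  ρ_mem : ρ ∈ T.A
  ρ_small : T.redA ρ = 0
  Q_big : ∀ i, ¬ hor i → Qm ∈ (T.R i).O
  ρG_big : ∀ i, ¬ hor i → ρ • Gm ∈ (T.R i).O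
  G_big : ∀ i, ¬ hor i → Gm ∉ (T.R i).O
  G_hor : ∀ i, hor i → Gm ∈ (T.R i).O
  ρQ_hor : ∀ i, hor i → ρ • Qm ∈ (T.R i).O
  Q_hor : ∀ i, hor i → Qm ∉ (T.R i).O
  prod_hor : ∀ i, hor i → ∃ c : k, c ≠ 0 ∧
    (T.R i).red (ρ • Qm) * (T.R i).red Gm = algebraMap k (Fb i) c

/-- The branches of the (future) nodes. -/
def IsBr (T : MultiRed K F k Fb) (hor : ι → Prop) (x Qm Gm : F) (t : Σ i, Place k (Fb i)) : Prop :=
  0 ≤ t.2.ord ((T.R t.1).red x) ∧
    ((hor t.1 ∧ t.2.ord ((T.R t.1).red Gm) < 0) ∨ (¬ hor t.1 ∧ t.2.ord ((T.R t.1).red Qm) < 0))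

variable [IsFF K F] [IsAlgClosed K] [∀ i, IsFF k (Fb i)] [IsAlgClosed k] [Fintype ι]
  {T : MultiRed K F k Fb} {hor : ι → Prop} {x Qm Gm : F} {ρ : K}

theorem NodalAbs_inB_ρQ (h : NodalHyp T hor x Qm Gm ρ) : InB T x (ρ • Qm) := by
  obtain ⟨a, ha⟩ := h.Q_reg
  refine ⟨fun i => ?_, a, Submodule.smul_mem _ _ ha⟩
  by_cases hi : hor i
  · exact h.ρQ_hor i hi
  · exact (T.R i).smul_mem ((T.mem_A_iff i).2 h.ρ_mem) (h.Q_big i hi)

theorem NodalAbs_inB_ρG (h : NodalHyp T hor x Qm Gm ρ) : InB T x (ρ • Gm) := by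
  obtain ⟨a, ha⟩ := h.G_reg
  refine ⟨fun i => ?_, a, Submodule.smul_mem _ _ ha⟩
  by_cases hi : hor i
  · exact (T.R i).smul_mem ((T.mem_A_iff i).2 h.ρ_mem) (h.G_hor i hi)
  · exact h.ρG_big i hi

theorem NodalAbs_inB_QρG (h : NodalHyp T hor x Qm Gm ρ) : InB T x (Qm * (ρ • Gm)) := by
  obtain ⟨a, ha⟩ := h.Q_reg
  obtain ⟨b, hb⟩ := h.G_reg
  refine ⟨fun l => ?_, a + b, ?_⟩
  · by_cases hl : hor l
    · have e : Qm * (ρ • Gm) = (ρ • Qm) * Gm := by rw [mul_smul_comm, smul_mul_assoc]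
      rw [e]
      exact (T.R l).O.mul_mem _ _ (h.ρQ_hor l hl) (h.G_hor l hl)
    · exact (T.R l).O.mul_mem _ _ (h.Q_big l hl) (h.ρG_big l hl)
  · rw [add_nsmul]
    exact mul_mem_L ha (Submodule.smul_mem _ _ hb)

/-- **(A1)** a big branch is glued to a horizontal branch.
PROOF. `exists_gluedAt_of_pole h.sep h.scales h.rankOne h.nonconst h.deg h.Q_reg (h.Q_big i hi) hP hQP` gives `j` with `Qm ∉ O_j` (so `hor j`, by `h.Q_big` and `by_contra`), `Q'` with
`0 ≤ ord_{Q'} x̄_j` and `GluedAt T x P Q'`.  Test function `y := ρ • Qm`: `InB T x y` (integral: on the big components `RedData.smul_mem` with `h.ρ_mem` (`T.mem_A_iff`), on the horizontal ones `h.ρQ_hor`;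
in `L(a (x)_∞)`: `Submodule.smul_mem`).  `red_i y = 0` (`RedData.red_smul`, `T.redA_eq`, `h.ρ_small`, `zero_smul`), so `ev P (red_i y) = 0` (`ev` of `0 = algebraMap 0`: `ev_algebraMap`),
hence `ev Q' (red_j y) = 0`.  `red_j y` is regular at `Q'` (`InB.ord_nonneg`), and `≠ 0` by `h.prod_hor`; so `0 < ord_{Q'} (red_j y)` (lemmas on `ev` in `DR/Abs/Ev*.lean`: `ev_eq_zero_iff`-type; or: `ev_spec`).
By `h.prod_hor`: `ord_{Q'} (red_j y) + ord_{Q'} (red_j Gm) = ord_{Q'} (algebraMap c) = 0` (`Place.ord_mul`, `ord_algebraMap`). -/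
theorem NodalHyp.partner_of_big [Nonempty ι] (h : NodalHyp T hor x Qm Gm ρ) {i : ι} (hi : ¬ hor i)
    {P : Place k (Fb i)} (hP : 0 ≤ P.ord ((T.R i).red x)) (hQP : P.ord ((T.R i).red Qm) < 0) :
    ∃ (j : ι) (P' : Place k (Fb j)), hor j ∧ 0 ≤ P'.ord ((T.R j).red x) ∧
      P'.ord ((T.R j).red Gm) < 0 ∧ GluedAt T x P P' := by
  obtain ⟨j, hj, P', hP', hgl⟩ := exists_gluedAt_of_pole h.sep h.scales h.rankOne h.nonconst h.deg
    h.Q_reg (h.Q_big i hi) hP hQP
  have hjh : hor j := by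
    by_contra hn
    exact hj (h.Q_big j hn)
  have hyB : InB T x (ρ • Qm) := NodalAbs_inB_ρQ h
  have hred_i : (T.R i).red (ρ • Qm) = 0 := by
    rw [(T.R i).red_smul ((T.mem_A_iff i).2 h.ρ_mem) (h.Q_big i hi), T.redA_eq, h.ρ_small,
      zero_smul]
  have hev : ev P' ((T.R j).red (ρ • Qm)) = 0 := by
    rw [← hgl _ hyB, hred_i, ev_zero]
  obtain ⟨c, hc, hprod⟩ := h.prod_hor j hjh
  have hc' : algebraMap k (Fb j) c ≠ 0 := by
    intro h0
    exact hc ((map_eq_zero _).1 h0)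
  have hne1 : (T.R j).red (ρ • Qm) ≠ 0 := by
    intro h0
    rw [h0, zero_mul] at hprod
    exact hc' hprod.symm
  have hne2 : (T.R j).red Gm ≠ 0 := by
    intro h0
    rw [h0, mul_zero] at hprod
    exact hc' hprod.symm
  have hreg := hyB.ord_nonneg h.sep h.nonconst h.deg j P' hP'
  have hpos : 0 < P'.ord ((T.R j).red (ρ • Qm)) :=
    ((ev_eq_zero_iff P' hreg).1 hev).resolve_left hne1
  have hsum : P'.ord ((T.R j).red (ρ • Qm)) + P'.ord ((T.R j).red Gm) = 0 := by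
    rw [← P'.ord_mul hne1 hne2, hprod, ord_algebraMap]
  exact ⟨j, P', hjh, hP', by omega, hgl⟩

/-- **(A2)** a horizontal branch is glued to a big branch.
PROOF. `exists_gluedAt_of_pole` with `G = Gm`: `j` with `Gm ∉ O_j` (so `¬ hor j` by `h.G_hor`), `P'`, `GluedAt T x P P'`.  Test functions:
`y₁ := ρ • Gm ∈ B`, `red_i y₁ = 0` on the horizontal components, so `ev P' (red_j y₁) = 0`;
`y₂ := Qm * (ρ • Gm) = (ρ • Qm) * Gm ∈ B` (big: `Q_big`, `ρG_big`; horizontal: `ρQ_hor`, `G_hor`; `mul_mem_L` for the poles), `red_i y₂ = algebraMap c`, `c ≠ 0`, so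
`ev P' (red_j Qm * red_j y₁) = c ≠ 0`.  If `0 ≤ ord_{P'} (red_j Qm)` then `ev_mul` gives `ev P' (red_j Qm) * 0 = c`: contradiction. -/
theorem NodalHyp.partner_of_hor [Nonempty ι] (h : NodalHyp T hor x Qm Gm ρ) {i : ι} (hi : hor i)
    {P : Place k (Fb i)} (hP : 0 ≤ P.ord ((T.R i).red x)) (hGP : P.ord ((T.R i).red Gm) < 0) :
    ∃ (j : ι) (P' : Place k (Fb j)), ¬ hor j ∧ 0 ≤ P'.ord ((T.R j).red x) ∧
      P'.ord ((T.R j).red Qm) < 0 ∧ GluedAt T x P P' := by
  obtain ⟨j, hj, P', hP', hgl⟩ := exists_gluedAt_of_pole h.sep h.scales h.rankOne h.nonconst h.deg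
    h.G_reg (h.G_hor i hi) hP hGP
  have hjb : ¬ hor j := fun hh => hj (h.G_hor j hh)
  have hy1 : InB T x (ρ • Gm) := NodalAbs_inB_ρG h
  have hred1 : (T.R i).red (ρ • Gm) = 0 := by
    rw [(T.R i).red_smul ((T.mem_A_iff i).2 h.ρ_mem) (h.G_hor i hi), T.redA_eq, h.ρ_small,
      zero_smul]
  have hev1 : ev P' ((T.R j).red (ρ • Gm)) = 0 := by
    rw [← hgl _ hy1, hred1, ev_zero]
  have hy2 : InB T x (Qm * (ρ • Gm)) := NodalAbs_inB_QρG h
  obtain ⟨c, hc, hprod⟩ := h.prod_hor i hi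
  have hred2 : (T.R i).red (Qm * (ρ • Gm)) = algebraMap k (Fb i) c := by
    have e : Qm * (ρ • Gm) = (ρ • Qm) * Gm := by rw [mul_smul_comm, smul_mul_assoc]
    rw [e, (T.R i).red_mul (h.ρQ_hor i hi) (h.G_hor i hi), hprod]
  have hev2 : ev P' ((T.R j).red (Qm * (ρ • Gm))) = c := by
    rw [← hgl _ hy2, hred2, ev_algebraMap]
  refine ⟨j, P', hjb, hP', ?_, hgl⟩
  by_contra hcon
  push Not at hcon
  rw [(T.R j).red_mul (h.Q_big j hjb) (h.ρG_big j hjb),
    ev_mul P' hcon (hy1.ord_nonneg h.sep h.nonconst h.deg j P' hP'), hev1, mul_zero] at hev2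
  exact hc hev2.symm

omit [IsFF K F] [IsAlgClosed K] [IsAlgClosed k] in
/-- **(A3)** there are finitely many branches.
PROOF. The set is contained in `⋃ i, (Sigma.mk i) '' ((poleDiv (red_i Gm)).support ∪ (poleDiv (red_i Qm)).support)` (`poleDiv_apply`: `poleDiv u P = max (- ord_P u) 0 ≠ 0` if `ord_P u < 0`);
`Set.finite_iUnion`, `Set.Finite.image`, `Finset.finite_toSet`. -/
theorem finite_isBr (T : MultiRed K F k Fb) (hor : ι → Prop) (x Qm Gm : F) :
    {t : Σ i, Place k (Fb i) | IsBr T hor x Qm Gm t}.Finite := by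
  classical
  apply Set.Finite.subset (s := ⋃ i, (Sigma.mk i) ''
    (((poleDiv (K := k) ((T.R i).red Gm)).support ∪
      (poleDiv (K := k) ((T.R i).red Qm)).support : Finset (Place k (Fb i))) :
        Set (Place k (Fb i))))
  · exact Set.finite_iUnion fun i => (Finset.finite_toSet _).image _
  · rintro ⟨i, P⟩ ⟨-, h | h⟩
    · refine Set.mem_iUnion.2 ⟨i, P, ?_, rfl⟩
      rw [Finset.mem_coe, Finset.mem_union]
      left
      rw [Finsupp.mem_support_iff, poleDiv_apply]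
      have h1 : P.ord ((T.R i).red Gm) < 0 := h.2
      have h2 := le_max_left (-(P.ord ((T.R i).red Gm))) 0
      omega
    · refine Set.mem_iUnion.2 ⟨i, P, ?_, rfl⟩
      rw [Finset.mem_coe, Finset.mem_union]
      right
      rw [Finsupp.mem_support_iff, poleDiv_apply]
      have h1 : P.ord ((T.R i).red Qm) < 0 := h.2
      have h2 := le_max_left (-(P.ord ((T.R i).red Qm))) 0
      omega

/-- **(A4) The reduction is nodal.**
PROOF. `Br := {t // IsBr T hor x Qm Gm t}` (`Fintype` from `finite_isBr`), `b := Subtype.val`; `Cl := Quotient s`, `s` the setoid `t ~ t' ↔ GluedAt T x t.1.2 t'.1.2` (reflexive, symmetric, transitive: equalities),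
`Fintype` by `Quotient.fintype` (classical) or `Fintype.ofFinite`; `c := Quotient.mk s`; `hgl` by `Quotient.exact`; `first t := hor t.1.1`; `h12` from (A1), (A2).
`hnum` of `exists_isPreNodal_of_cluster`: `∑ i, (B i).card ≤ card Br` (the map `(Σ i, B i) → Br` is injective; `Fintype.card_sigma`, `Fintype.card_coe`), `Finset.sum_add_distrib`, `Finset.mul_sum`.
Output: `N := nodeOf b p₁ p₂`.  `N.branch` is `b ∘ Sum.elim p₁ p₂` (`nodeOf_branch`): injective as in the proof of `exists_isPreNodal_of_cluster`, and its range is the set of all branches by `∀ t, t = p₁ (c t) ∨ t = p₂ (c t)`.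
Last statement: `card Br = 2 card Cl` and `card Cl + ∑ (g_i - 1) = g - 1` give `card Br ≤ ∑ (B i).card`, so the injective map `(Σ i, B i) → Br` is bijective (`Fintype.bijective_iff_injective_and_card`). -/
theorem NodalHyp.main [Nonempty ι] (h : NodalHyp T hor x Qm Gm ρ)
    (B : ∀ i, Finset (Place k (Fb i))) (hB : ∀ i, ∀ P ∈ B i, IsBr T hor x Qm Gm ⟨i, P⟩)
    (hnum : 2 * ((genusFF K F : ℤ) - 1) ≤
      ∑ i, (((B i).card : ℤ) + 2 * ((genusFF k (Fb i) : ℤ) - 1))) :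
    ∃ (Cl : Type) (_ : Fintype Cl) (N : NodeData k Fb Cl) (c₀ : K) (a₀ : ℕ), c₀ ∈ T.A ∧
      IsPreNodal T (x - algebraMap K F c₀) N a₀ ∧
      (∀ l, hor (N.i₁ l)) ∧ (∀ l, ¬ hor (N.i₂ l)) ∧
      (∀ l, GluedAt T x (N.p₁ l) (N.p₂ l)) ∧
      Function.Injective N.branch ∧
      (∀ t, IsBr T hor x Qm Gm t ↔ t ∈ Set.range N.branch) ∧
      (∀ i P, IsBr T hor x Qm Gm ⟨i, P⟩ → P ∈ B i) ∧
      (Fintype.card Cl : ℤ) + ∑ i, ((genusFF k (Fb i) : ℤ) - 1) = (genusFF K F : ℤ) - 1 := by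
  classical
  let Br : Type := {t : Σ i, Place k (Fb i) // IsBr T hor x Qm Gm t}
  let instBr : Fintype Br := (finite_isBr T hor x Qm Gm).fintype
  let b : Br → Σ i, Place k (Fb i) := Subtype.val
  let s : Setoid Br :=
    { r := fun t t' => GluedAt T x t.1.2 t'.1.2
      iseqv := ⟨fun t y _ => rfl, fun h y hy => (h y hy).symm,
        fun h1 h2 y hy => (h1 y hy).trans (h2 y hy)⟩ }
  let Cl : Type := Quotient s
  let instCl : Fintype Cl := Fintype.ofFinite _
  let c : Br → Cl := Quotient.mk s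
  have hc : Function.Surjective c := Quotient.mk_surjective
  have hgl : ∀ t t', c t = c t' → GluedAt T x (b t).2 (b t').2 := fun t t' e => Quotient.exact e
  let first : Br → Prop := fun t => hor t.1.1
  have h12 : ∀ t, ∃ t', c t' = c t ∧ (first t' ↔ ¬ first t) := by
    rintro ⟨⟨i, P⟩, hP, hh | hh⟩
    · obtain ⟨j, P', hj, hP', hQ', hg⟩ := h.partner_of_hor hh.1 hP hh.2
      refine ⟨⟨⟨j, P'⟩, hP', Or.inr ⟨hj, hQ'⟩⟩, Quotient.sound ?_, ?_⟩
      · exact fun y hy => (hg y hy).symm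
      · exact ⟨fun h1 => absurd h1 hj, fun h1 => absurd hh.1 h1⟩
    · obtain ⟨j, P', hj, hP', hG', hg⟩ := h.partner_of_big hh.1 hP hh.2
      refine ⟨⟨⟨j, P'⟩, hP', Or.inl ⟨hj, hG'⟩⟩, Quotient.sound ?_, ?_⟩
      · exact fun y hy => (hg y hy).symm
      · exact ⟨fun _ => hh.1, fun _ => hj⟩
  let φ : (Σ i, {P // P ∈ B i}) → Br := fun t => ⟨⟨t.1, t.2.1⟩, hB t.1 t.2.1 t.2.2⟩
  have hφ : Function.Injective φ := by
    rintro ⟨i, P, hP⟩ ⟨j, Q, hQ⟩ e
    have e1 : (⟨i, P⟩ : Σ i, Place k (Fb i)) = ⟨j, Q⟩ := congrArg Subtype.val e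
    cases e1
    rfl
  have hcardφ : Fintype.card (Σ i, {P // P ∈ B i}) = ∑ i, (B i).card := by
    rw [Fintype.card_sigma]
    exact Finset.sum_congr rfl fun i _ => Fintype.card_coe _
  have hcardB : ∑ i, (B i).card ≤ Fintype.card Br := by
    rw [← hcardφ]
    exact Fintype.card_le_of_injective φ hφ
  rw [Finset.sum_add_distrib, ← Finset.mul_sum] at hnum
  have hnum' : 2 * ((genusFF K F : ℤ) - 1) ≤
      (Fintype.card Br : ℤ) + 2 * ∑ i, ((genusFF k (Fb i) : ℤ) - 1) := by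
    have h1 : (∑ i, ((B i).card : ℤ)) ≤ Fintype.card Br := by exact_mod_cast hcardB
    linarith
  obtain ⟨hcard, hEQ, p₁, p₂, hp₁, hp₂, hall, c₀, hc₀, a₀, hN⟩ :=
    exists_isPreNodal_of_cluster h.sep h.nonconst h.deg b Subtype.val_injective (fun t => t.2.1)
      c hc hgl first h12 hnum'
  refine ⟨Cl, instCl, nodeOf b p₁ p₂, c₀, a₀, hc₀, hN, fun l => (hp₁ l).2, fun l => (hp₂ l).2,
    ?_, hN.inj, ?_, ?_, hEQ⟩
  · intro l
    exact hgl (p₁ l) (p₂ l) (by rw [(hp₁ l).1, (hp₂ l).1])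
  · intro t
    rw [nodeOf_branch]
    constructor
    · intro ht
      rcases hall ⟨t, ht⟩ with e | e
      · exact ⟨Sum.inl (c ⟨t, ht⟩), (congrArg b e).symm⟩
      · exact ⟨Sum.inr (c ⟨t, ht⟩), (congrArg b e).symm⟩
    · rintro ⟨u, rfl⟩
      exact (Sum.elim p₁ p₂ u).2
  · have hle : Fintype.card Br ≤ ∑ i, (B i).card := by
      have h1 : (Fintype.card Br : ℤ) ≤ ∑ i, ((B i).card : ℤ) := by
        rw [hcard]
        push_cast
        linarith
      exact_mod_cast h1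
    have hbij : Function.Bijective φ :=
      (Fintype.bijective_iff_injective_and_card φ).2 ⟨hφ, by rw [hcardφ]; omega⟩
    intro i P hBr
    obtain ⟨⟨j, Q, hQ⟩, e⟩ := hbij.2 ⟨⟨i, P⟩, hBr⟩
    have e1 : (⟨j, Q⟩ : Σ i, Place k (Fb i)) = ⟨i, P⟩ := congrArg Subtype.val e
    cases e1
    exact hQ

end Fermat.Agent.S36.Nodal
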