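import Fermat.Agent.S36.Nodal.Conc

/-!
# S36/Nodal/Main : assembly: the stable fibre of `X₀(M q²)` is pre-nodal
-/

set_option autoImplicit false
set_option linter.unusedSectionVars false

noncomputable section

namespace Fermat.Agent.S36.Nodal

open AlgebraicCurve ModularCurve Fermat.Agent.S24 Fermat.Agent.GAL
  Fermat.Agent.GAL.RED Fermat.Agent.GAL.Gauss Fermat.Agent.DR.Abs Fermat.Agent.DR.Conc
  Fermat.Agent.S36.Abs Fermat.Agent.S36.Norm Fermat.Agent.S36.Val Fermat.Agent.S36.Geo
  Fermat.Agent.S36.E Fermat.Agent.S36.Kron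

attribute [local instance] algMid

theorem NodalMain_redA (A : ValuationSubring Kbar) (M : ℕ) [NeZero M]
    (hM : ((M : ℕ) : IsLocalRing.ResidueField ↥A) ≠ 0)
    (E' : IntermediateField Kbar (LaurentSeries Kbar))
    (hE : E' = modularFunctionFieldFullC Kbar M) (a : Kbar) :
    (gaussRedData' A M hM E' hE).redA a = redAOf A a := by
  subst hE
  rfl

variable {S : Setup} (C : Coord (RS S)) (Vhor : ↥C.SS → ValOver S.A S.F2)
  [∀ i, Lib.RR.IsFF S.k (stFb S Vhor i)]

theorem semiHyp_st (hneat : 4 ∣ S.M ∨ 9 ∣ S.M) (hj : C.j = jF S.M)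
    (hSS : 12 * C.SS.card = (S.q - 1) * dedekindPsi S.M)
    (hrk : RankOne (stT S Vhor))
    {θ : ∀ i : Comp ↥C.SS S.MidIdx, ¬ IsHor i → (Igusa.E S.k S.M →ₐ[S.k] stFb S Vhor i)}
    (hB : BigFacts C Vhor θ) (hH : HorFacts C Vhor) :
    SemiHyp C (stT S Vhor) S.q (Phi S.k S.M S.q) (frPerm S) IsHor θ (heOf C) where
  A_eq := (gaussRedData'_A S.A S.M _ _ _).symm
  redA_eq := fun c => (NodalMain_redA S.A S.M _ _ _ c).symm
  scales := by
    intro i w hw
    cases i with
    | hor e => exact hH.scales e w hw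
    | inf => exact hB.scales .inf (fun h => h) w hw
    | zero => exact hB.scales .zero (fun h => h) w hw
    | mid v => exact hB.scales (.mid v) (fun h => h) w hw
  rankOne := hrk
  finite := Kron.finiteAlong_mid
  finrank_le := (Kron.finrankAlong_mid S.hq S.hqM).le
  Φ_j := by
    rw [hj, RM_red_jF, Phi_jb]
  Φ_ord := ord_Phi_S S
  big_comap := hB.comap
  big_red := hB.red
  big_inc := hB.inc
  big_fin := hB.fin
  big_sum := hB.sum
  big_three := by
    obtain ⟨ζ, hζ⟩ := HasEnoughRootsOfUnity.exists_primitiveRoot Kbar S.q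
    refine ⟨.inf, .zero, .mid (S.midOf ⟨ζ, hζ⟩), id, id, id, ?_, ?_, ?_⟩ <;> intro h <;> cases h
  hor_mem := by
    intro i hi
    cases i with
    | hor e => exact e.2
    | inf => exact hi.elim
    | zero => exact hi.elim
    | mid v => exact hi.elim
  hor_inj := by
    intro i i' hi hi' h
    cases i with
    | hor e =>
      cases i' with
      | hor e' => exact congrArg _ (Subtype.ext h)
      | inf => exact hi'.elim
      | zero => exact hi'.elim
      | mid v => exact hi'.elim
    | inf => exact hi.elim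
    | zero => exact hi.elim
    | mid v => exact hi.elim
  hor_surj := fun e he => ⟨.hor ⟨e, he⟩, trivial, rfl⟩
  hor_val := by
    intro i hi
    cases i with
    | hor e => exact hH.val e
    | inf => exact hi.elim
    | zero => exact hi.elim
    | mid v => exact hi.elim
  hor_deg := by
    intro i hi
    cases i with
    | hor e => exact hH.deg e
    | inf => exact hi.elim
    | zero => exact hi.elim
    | mid v => exact hi.elim
  hor_num := by
    intro i hi
    cases i with
    | hor e => exact hH.num e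
    | inf => exact hi.elim
    | zero => exact hi.elim
    | mid v => exact hi.elim
  genus := by
    have h1 := genus_level_sq' S.A hneat S.hq S.hqM S.hA
    have hq1 : 1 ≤ S.q := S.hq.one_le
    have h2 : (12 : ℤ) * (C.SS.card : ℤ) = ((S.q : ℤ) - 1) * (dedekindPsi S.M : ℤ) := by
      have := congrArg (fun n : ℕ => (n : ℤ)) hSS
      push_cast [Nat.cast_sub hq1] at this
      exact this
    rw [← h2] at h1
    push_cast
    linarith

/-- **The stable fibre of `X₀(M q²)` is pre-nodal**; every node joins a horizontal component and a big component; the branches are exactly the finite poles of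
`red (mid (G₀/ρ))` on the horizontal components and of `red (mid Q)` on the big components. -/
theorem nodal_st (hneat : 4 ∣ S.M ∨ 9 ∣ S.M) (hj : C.j = jF S.M)
    (hSS : 12 * C.SS.card = (S.q - 1) * dedekindPsi S.M)
    (hrk : RankOne (stT S Vhor))
    {θ : ∀ i : Comp ↥C.SS S.MidIdx, ¬ IsHor i → (Igusa.E S.k S.M →ₐ[S.k] stFb S Vhor i)}
    (hB : BigFacts C Vhor θ) (hH : HorFacts C Vhor) :
    ∃ (Cl : Type) (_ : Fintype Cl) (N : NodeData S.k (stFb S Vhor) Cl) (c₀ : Kbar) (a₀ : ℕ),
      c₀ ∈ S.A ∧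
      IsPreNodal (stT S Vhor) (C.xF S.F2 - algebraMap Kbar S.F2 c₀) N a₀ ∧
      (∀ l, IsHor (N.i₁ l)) ∧ (∀ l, ¬ IsHor (N.i₂ l)) ∧
      (∀ l, GluedAt (stT S Vhor) (C.xF S.F2) (N.p₁ l) (N.p₂ l)) ∧
      Function.Injective N.branch ∧
      (∀ t, IsBr (stT S Vhor) IsHor (C.xF S.F2) (C.QF S.F2) (C.GF S.F2) t ↔
        t ∈ Set.range N.branch) ∧
      (Fintype.card Cl : ℤ) + ∑ i, ((genusFF S.k (stFb S Vhor i) : ℤ) - 1) =
        (genusFF Kbar S.F2 : ℤ) - 1 :=
  (semiHyp_st C Vhor hneat hj hSS hrk hB hH).main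

end Fermat.Agent.S36.Nodal
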