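import Fermat.Agent.GAL.FF.RH.Ineq
import Fermat.Agent.GAL.RED.PoleDegLe
import Fermat.Agent.GAL.RED.PoleDegGe
import Fermat.Agent.DR.Abs.PoleBound
import Fermat.Prelude.Def_AlgebraicCurve_Correspondence

/-!
# S36/Nodal/Tools : three lemmas on finite extensions of function fields (along an algebra homomorphism)

`θ : L1 →ₐ[k] L` a finite morphism of function fields over an algebraically closed field.
* `finrankAlong_mul_degree_le`  : `[L : θ L1] * deg (u)_∞ ≤ deg (θ u)_∞`   (no separability);
* `degree_poleDiv_along`        : equality, for `θ` separable;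
* `rh_count_along`              : Riemann-Hurwitz: if `S` is the set of the places of `L` above a finite set `Z` of places of `L1`, `[L : L1] (2 g₁ - 2 + #Z) ≤ #S + 2 g - 2`.
-/

set_option autoImplicit false

namespace Fermat.Agent.S36.Nodal

open AlgebraicCurve Fermat.Agent.Lib.RR Fermat.Agent.GAL.RED

variable {k L1 L : Type*} [Field k] [IsAlgClosed k] [Field L1] [Field L] [Algebra k L1] [Algebra k L]
  [IsFF k L1] [IsFF k L]

/-- **(T1)** `[L : L1] * deg (u)_∞ ≤ deg (θ u)_∞`.
PROOF. `letI := algebraAlong θ`, `isScalarTower_along θ`, `haveI : Module.Finite L1 L := hfin`.  `exists_polyIndep u hu` gives `n = deg (u)_∞` and `z : Fin n → L1`, `PolyIndep k u z`.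
`β := Module.finBasis L1 L` (`f = finrank`).  The family `(a, c) ↦ θ (z a) * β c`, reindexed by `Fin (n * f)` (`finProdFinEquiv`), is `PolyIndep k (θ u)`:
`∑_{a,c} aeval (θ u) (p (a,c)) * (θ (z a) * β c) = ∑_c (∑_a aeval u (p (a,c)) * z a) • β c` (`Polynomial.aeval_algHom_apply`, `Algebra.smul_def`), so by independence of `β` all inner sums vanish
and `PolyIndep k u z` gives `p (·, c) = 0`.  Conclude by `card_le_degree_poleDiv`. -/
theorem finrankAlong_mul_degree_le (θ : L1 →ₐ[k] L) (hfin : FiniteAlong k θ) (u : L1)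
    (hu : u ∉ Set.range (algebraMap k L1)) :
    (finrankAlong k θ : ℤ) * Divisor.degree (poleDiv (K := k) u) ≤
      Divisor.degree (poleDiv (K := k) (θ u)) := by
  let _ := algebraAlong θ
  have := isScalarTower_along θ
  have : Module.Finite L1 L := hfin
  obtain ⟨n, z, hn, hz⟩ := exists_polyIndep (K := k) u hu
  let β := Module.finBasis L1 L
  let w : Fin (n * Module.finrank L1 L) → L := fun i =>
    θ (z (finProdFinEquiv.symm i).1) * β (finProdFinEquiv.symm i).2
  have hw : PolyIndep k (θ u) w := by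
    intro p hp
    have h1 : ∑ i, Polynomial.aeval (θ u) (p i) * w i =
        ∑ c : Fin (Module.finrank L1 L),
          (∑ a : Fin n, Polynomial.aeval u (p (finProdFinEquiv (a, c))) * z a) • β c := by
      rw [← Equiv.sum_comp finProdFinEquiv, Fintype.sum_prod_type_right]
      refine Finset.sum_congr rfl fun c _ => ?_
      rw [Finset.sum_smul]
      refine Finset.sum_congr rfl fun a _ => ?_
      rw [Algebra.smul_def]
      show _ = θ (Polynomial.aeval u (p (finProdFinEquiv (a, c))) * z a) * β c
      rw [map_mul, ← Polynomial.aeval_algHom_apply]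
      simp only [w, Equiv.symm_apply_apply]
      ring
    rw [h1] at hp
    have h2 := Fintype.linearIndependent_iff.mp β.linearIndependent _ hp
    funext i
    have h3 := hz (fun a => p (finProdFinEquiv (a, (finProdFinEquiv.symm i).2)))
      (h2 (finProdFinEquiv.symm i).2)
    have h4 : p (finProdFinEquiv ((finProdFinEquiv.symm i).1, (finProdFinEquiv.symm i).2)) = 0 :=
      congrFun h3 (finProdFinEquiv.symm i).1
    rw [Prod.mk.eta, Equiv.apply_symm_apply] at h4
    exact h4
  have h5 := card_le_degree_poleDiv (K := k) (θ u) w hw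
  rw [← hn]
  have h6 : (finrankAlong k θ : ℤ) = (Module.finrank L1 L : ℤ) := rfl
  rw [h6]
  push_cast at h5
  linarith [mul_comm (n : ℤ) (Module.finrank L1 L : ℤ)]

theorem NodalTools2_degree_poleDiv {k F F' : Type*} [Field k] [IsAlgClosed k] [Field F] [Field F']
    [Algebra k F] [Algebra k F'] [Algebra F F'] [IsScalarTower k F F'] [FiniteDimensional F F']
    [Algebra.IsSeparable F F'] [IsFF k F] [IsFF k F'] (u : F) :
    Divisor.degree (poleDiv (K := k) (algebraMap F F' u)) =
      (Module.finrank F F' : ℤ) * Divisor.degree (poleDiv (K := k) u) := by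
  have h : poleDiv (K := k) (algebraMap F F' u) = Divisor.pullback F' (poleDiv (K := k) u) := by
    ext w
    rw [Divisor.pullback_apply, poleDiv_apply, poleDiv_apply, w.ord_restrict u]
    have he : (0 : ℤ) ≤ (w.ramificationIndex F : ℤ) := Int.natCast_nonneg _
    rw [← mul_neg, mul_max_of_nonneg _ _ he, mul_zero]
  rw [h, Divisor.degree_pullback]

theorem NodalTools2_rh_count {k F F' : Type*} [Field k] [IsAlgClosed k] [Field F] [Field F']
    [Algebra k F] [Algebra k F'] [Algebra F F'] [IsScalarTower k F F'] [FiniteDimensional F F']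
    [Algebra.IsSeparable F F'] [IsFF k F] [IsFF k F'] (Z : Finset (Place k F)) :
    ∃ S : Finset (Place k F'),
      (∀ w ∈ S, ∃ v ∈ Z, ∃ e : ℕ, 0 < e ∧ ∀ u : F, w.ord (algebraMap F F' u) = e * v.ord u) ∧
      (Module.finrank F F' : ℤ) * (2 * (genusFF k F : ℤ) - 2 + Z.card) ≤
        (S.card : ℤ) + (2 * (genusFF k F' : ℤ) - 2) := by
  classical
  set S : Finset (Place k F') := Z.biUnion (fun v => v.fiber F') with hS
  have hdisj : (Z : Set (Place k F)).PairwiseDisjoint (fun v => v.fiber F') := by
    intro v _ v' _ hvv'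
    rw [Function.onFun, Finset.disjoint_left]
    intro w h1 h2
    rw [Place.mem_fiber] at h1 h2
    exact hvv' (h1.symm.trans h2)
  refine ⟨S, ?_, ?_⟩
  · intro w hw
    rw [hS, Finset.mem_biUnion] at hw
    obtain ⟨v, hv, hwv⟩ := hw
    rw [Place.mem_fiber] at hwv
    refine ⟨v, hv, w.ramificationIndex F, w.ramificationIndex_pos (F := F), fun u => ?_⟩
    rw [w.ord_restrict u, hwv]
  · have hsum : ∑ w ∈ S, ((w.ramificationIndex F : ℤ) - 1)
        = (Module.finrank F F' : ℤ) * Z.card - S.card := by
      rw [Finset.sum_sub_distrib, hS, Finset.sum_biUnion hdisj]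
      rw [Finset.sum_congr rfl (fun v _ => GAL.FF.sum_ramificationIndex (F' := F') v)]
      simp [mul_comm]
    have hRH := GAL.FF.riemann_hurwitz_le (k := k) (F := F) (F' := F') S
    rw [hsum] at hRH
    linarith

/-- **(T2)** `deg (θ u)_∞ = [L : L1] * deg (u)_∞` for a separable morphism.
PROOF. `letI := algebraAlong θ` etc.  `poleDiv (algebraMap L1 L u) = Divisor.pullback L (poleDiv u)`: `ext w`, `Divisor.pullback_apply`, `poleDiv_apply`, `Place.ord_restrict`, the ramification index is `≥ 0`
(`max (-(e * n)) 0 = e * max (-n) 0`).  `Divisor.degree_pullback` with the instance `GAL.FF.instFundamentalIdentity`. -/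
theorem degree_poleDiv_along (θ : L1 →ₐ[k] L) (hfin : FiniteAlong k θ)
    (hsep : letI := algebraAlong θ; Algebra.IsSeparable L1 L) (u : L1) :
    Divisor.degree (poleDiv (K := k) (θ u)) =
      (finrankAlong k θ : ℤ) * Divisor.degree (poleDiv (K := k) u) := by
  letI := algebraAlong θ
  haveI := isScalarTower_along θ
  haveI : Module.Finite L1 L := hfin
  haveI : Algebra.IsSeparable L1 L := hsep
  exact NodalTools2_degree_poleDiv (k := k) (F := L1) (F' := L) u

/-- **(T3)** Riemann-Hurwitz count.
PROOF. `letI := algebraAlong θ` etc.  `S := Z.biUnion (fun v => v.fiber L)` (pairwise disjoint fibres, as in `GAL.Igusa.rh_pole_bound`, file `GAL/Igusa/Tower.lean`, which is the template).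
`∑_{w ∈ S} (e_w - 1) = ∑_{v ∈ Z} ∑_{w | v} e_w - #S = f * #Z - #S` (`GAL.FF.sum_ramificationIndex`); `GAL.FF.riemann_hurwitz_le S`.
For `w ∈ v.fiber L`: `w.restrict L1 = v` (`Place.mem_fiber`), `w.ord (θ u) = e_w * v.ord u` (`Place.ord_restrict`), `e_w > 0` (`Place.ramificationIndex_pos`). -/
theorem rh_count_along (θ : L1 →ₐ[k] L) (hfin : FiniteAlong k θ)
    (hsep : letI := algebraAlong θ; Algebra.IsSeparable L1 L) (Z : Finset (Place k L1)) :
    ∃ S : Finset (Place k L),
      (∀ w ∈ S, ∃ v ∈ Z, ∃ e : ℕ, 0 < e ∧ ∀ u : L1, w.ord (θ u) = e * v.ord u) ∧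
      (finrankAlong k θ : ℤ) * (2 * (genusFF k L1 : ℤ) - 2 + Z.card) ≤
        (S.card : ℤ) + (2 * (genusFF k L : ℤ) - 2) := by
  letI := algebraAlong θ
  haveI := isScalarTower_along θ
  haveI : Module.Finite L1 L := hfin
  haveI : Algebra.IsSeparable L1 L := hsep
  exact NodalTools2_rh_count (k := k) (F := L1) (F' := L) Z

end Fermat.Agent.S36.Nodal
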