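import Fermat.Agent.S36.Nodal.Abs
import Fermat.Agent.S36.Nodal.Tools
import Fermat.Agent.S36.Geo.Coord.Disc
import Fermat.Agent.S36.Geo.Coord.Main
import Fermat.Agent.S36.Geo.Coord.Exists
import Fermat.Agent.S36.Norm.Tools.Sep

/-!
# S36/Nodal/Semi : the stable fibre of a covering `F / E` of degree `q (q+1)` of a curve `E` with good reduction

`E / K` with good reduction `R` (residue curve `Eb`), with the coordinate data `C : Coord R` of helper53 (`SS`, `xe`, `ρ`, `j`, `a`, `Q`, `G₀`, `P₀`; `x₁ = j ^ a + ρ Q`).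
`F / E` finite of degree `≤ q (q+1)`.  `T` a finite family of reductions of `F`:
* BIG components (`¬ hor i`): restriction to `E` is `R`; the residue map `Eb → Fb i` is `θ i ∘ Φ`, where `Φ` is the `k`-linear Frobenius of `Eb` (`ord_P (Φ u) = q ord_{π P} u`, `Φ j̄ = j̄ ^ q`)
  and `θ i hi : Eb → Fb i` (defined for the big components only) is finite of degree `f i`, with `∑ f i ≥ q + 1`; there are at least three of them;
* HORIZONTAL components (`hor i`): restriction to `E` is the Gauss point of the disc `|xe e| ≤ |ρ|`, `e = he i ∈ SS` (one for each `e`), `deg (x̄ᵢ)_∞ ≥ q (q+1)`, and at least `q + 1 - (2 gᵢ - 2)` finite poles of `red (G₀/ρ)`.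
* `2 (g_F - 1) ≤ (q+1) (2 (g_Eb - 1) + 2 #SS)`.
CONCLUSION (`SemiHyp.main`): `IsPreNodal`, every node joins a horizontal and a big component.
-/

set_option autoImplicit false
set_option linter.unusedSectionVars false

namespace Fermat.Agent.S36.Nodal

open AlgebraicCurve Fermat.Agent.Lib.RR Fermat.Agent.GAL.RED Fermat.Agent.DR.Abs Fermat.Agent.S36.Abs
  Fermat.Agent.S36.Val Fermat.Agent.S36.Geo

variable {K E k Eb : Type} [Field K] [Field E] [Algebra K E] [Field k] [Field Eb] [Algebra k Eb]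

/-- The coordinate data at the level of `E` (helper53's `CoordHyp`, `IsCoord`), bundled. -/
structure Coord [HasPrincipalDivisors K E] [HasPrincipalDivisors k Eb] (R : RedData K E k Eb) where
  /-- the reduction map -/
  r : Place K E → Place k Eb
  /-- the supersingular points -/
  SS : Finset (Place k Eb)
  /-- coordinates on the residue discs -/
  xe : Place k Eb → E
  /-- the radius -/
  ρ : K
  /-- the `j`-function -/
  j : E
  /-- the exponent -/
  a : ℕ
  /-- simple poles at the `P₀ e` -/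
  Q : E
  /-- simple zeros at the `P₀ e` -/
  G₀ : E
  /-- the origins of the discs -/
  P₀ : Place k Eb → Place K E
  redMap : IsRedMap R r
  hyp : CoordHyp R r SS xe ρ j
  isCoord : IsCoord R r SS xe j a Q G₀ P₀
  ne : SS.Nonempty

section defs

variable [HasPrincipalDivisors K E] [HasPrincipalDivisors k Eb] {R : RedData K E k Eb}
  (C : Coord R) (F : Type) [Field F] [Algebra E F]

/-- the coordinate `x₁ = j ^ a + ρ Q`, in `F`. -/
def Coord.xF : F := algebraMap E F (coordOf C.ρ C.j C.a C.Q)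

/-- `Q`, in `F`. -/
def Coord.QF : F := algebraMap E F C.Q

/-- `G₀ / ρ`, in `F`. -/
def Coord.GF : F := algebraMap E F ((algebraMap K E C.ρ)⁻¹ * C.G₀)

end defs

variable {F : Type} [Field F] [Algebra E F] [Algebra K F] [IsScalarTower K E F]
  {ι : Type} {Fb : ι → Type} [∀ i, Field (Fb i)] [∀ i, Algebra k (Fb i)]

open Classical in
/-- The hypotheses. -/
structure SemiHyp [HasPrincipalDivisors K E] [HasPrincipalDivisors k Eb] [IsFF K F] [IsFF k Eb]
    [∀ i, IsFF k (Fb i)] [Fintype ι] {R : RedData K E k Eb} (C : Coord R) (T : MultiRed K F k Fb)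
    (q : ℕ) (Φ : Eb →ₐ[k] Eb) (π : Equiv.Perm (Place k Eb)) (hor : ι → Prop)
    (θ : ∀ i, ¬ hor i → (Eb →ₐ[k] Fb i)) (he : ι → Place k Eb) : Prop where
  A_eq : T.A = R.A
  redA_eq : ∀ c, T.redA c = R.redA c
  scales : HasScales T
  rankOne : RankOne T
  finite : FiniteDimensional E F
  finrank_le : Module.finrank E F ≤ q * (q + 1)
  Φ_j : Φ (R.red C.j) = R.red C.j ^ q
  Φ_ord : ∀ (P : Place k Eb) (u : Eb), P.ord (Φ u) = q * (π P).ord u
  big_comap : ∀ i, ¬ hor i → (T.R i).O.comap (algebraMap E F) = R.O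
  big_red : ∀ i (hi : ¬ hor i), ∀ y ∈ R.O,
    (T.R i).red (algebraMap E F y) = θ i hi (Φ (R.red y))
  big_inc : ∀ i i', ¬ hor i → ¬ hor i' → i ≠ i' → ∃ t ∈ (T.R i).O, t ∉ (T.R i').O
  big_fin : ∀ i (hi : ¬ hor i), FiniteAlong k (θ i hi)
  big_sum : q + 1 ≤ ∑ i, if hi : hor i then 0 else finrankAlong k (θ i hi)
  big_three : ∃ i₁ i₂ i₃, ¬ hor i₁ ∧ ¬ hor i₂ ∧ ¬ hor i₃ ∧ i₁ ≠ i₂ ∧ i₁ ≠ i₃ ∧ i₂ ≠ i₃
  hor_mem : ∀ i, hor i → he i ∈ C.SS
  hor_inj : ∀ i i', hor i → hor i' → he i = he i' → i = i'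
  hor_surj : ∀ e ∈ C.SS, ∃ i, hor i ∧ he i = e
  hor_val : ∀ i, hor i →
    IsDiscVal R C.r (he i) (C.xe (he i)) C.ρ ((T.R i).O.comap (algebraMap E F))
  hor_deg : ∀ i, hor i →
    ((q * (q + 1) : ℕ) : ℤ) ≤ Divisor.degree (poleDiv (K := k) ((T.R i).red (C.xF F)))
  hor_num : ∀ i, hor i → ∃ B : Finset (Place k (Fb i)),
    (∀ P ∈ B, 0 ≤ P.ord ((T.R i).red (C.xF F)) ∧ P.ord ((T.R i).red (C.GF F)) < 0) ∧
      ((q + 1 : ℕ) : ℤ) ≤ (B.card : ℤ) + 2 * ((genusFF k (Fb i) : ℤ) - 1)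
  genus : 2 * ((genusFF K F : ℤ) - 1) ≤
    ((q + 1 : ℕ) : ℤ) * (2 * ((genusFF k Eb : ℤ) - 1) + 2 * (C.SS.card : ℤ))

variable [IsFF K E] [IsFF K F] [IsAlgClosed K] [CharZero K] [IsFF k Eb] [IsAlgClosed k]
  [∀ i, IsFF k (Fb i)] [Fintype ι]
  {R : RedData K E k Eb} {C : Coord R} {T : MultiRed K F k Fb} {q : ℕ} {Φ : Eb →ₐ[k] Eb}
  {π : Equiv.Perm (Place k Eb)} {hor : ι → Prop} {θ : ∀ i, ¬ hor i → (Eb →ₐ[k] Fb i)}
  {he : ι → Place k Eb}

/-- **(S0)** membership in `O_i` of an element of `E`. -/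
theorem SemiHyp.mem_big_iff (h : SemiHyp C T q Φ π hor θ he) {i : ι} (hi : ¬ hor i) (y : E) :
    algebraMap E F y ∈ (T.R i).O ↔ y ∈ R.O := by
  rw [← h.big_comap i hi]
  rfl

/-- **(S1a)** two distinct points of `SS` are separated by a function.
PROOF. `D := m • poleDiv j - single (P₀ e) 1` with `m` large (`degree (poleDiv j) > 0` by `C.hyp.j_nonconst`, `j_deg`, `degree_poleDiv_pos`); `Geo.Exists_lift C.redMap D _ _ {e, e'}` gives `f ∈ L(D) ∩ R.O` with
`ord_e (red f) = - (r_* D) e = 1`, `ord_{e'} (red f) = - (r_* D) e' = 0`  (`r_* (poleDiv j) = poleDiv (red j)` : `Geo.Exists_map_poleDiv`, which vanishes at `e`, `e'` by `C.hyp.j_reg`; `Finsupp.mapDomain_single`, `C.isCoord.origin`).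
`f ∈ discRing R r e''` for `e'' ∈ SS`: the poles of `f` are poles of `j` (`mem_riemannRochSpace_iff`), and `j` has no pole on the residue disc (`CoordHyp.ord_j`, `j_reg`), as in `CoordDisc5_j_mem`. -/
theorem Coord.exists_separating (C : Coord R) {e e' : Place k Eb} (he : e ∈ C.SS) (he' : e' ∈ C.SS)
    (hne : e ≠ e') :
    ∃ f : E, f ∈ discRing R C.r e ∧ f ∈ discRing R C.r e' ∧ R.red f ≠ 0 ∧ 0 < e.ord (R.red f) ∧
      e'.ord (R.red f) = 0 := by
  classical
  have hr := C.redMap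
  have h := C.hyp
  have hjne : R.red C.j ≠ 0 := fun h0 => h.j_nonconst ⟨0, by rw [map_zero, h0]⟩
  have hmap := (Exists_map_poleDiv hr hjne h.j_deg).1
  have hdpos : 0 < Divisor.degree (poleDiv (K := K) C.j) := by
    rw [h.j_deg]
    exact DR.Abs.degree_poleDiv_pos h.j_nonconst
  set m : ℕ := 3 * genusFF K E + 2 * genusFF k Eb + 1 with hm
  have hPdeg : Divisor.degree (Finsupp.single (C.P₀ e) (1 : ℤ)) = 1 := by
    show Divisor.degree (pt (C.P₀ e)) = 1
    rw [degree_pt, deg_eq_one]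
    rfl
  have hjmap : ∀ e ∈ C.SS, Finsupp.mapDomain C.r (m • poleDiv (K := K) C.j) e = 0 := by
    intro e he
    rw [Finsupp.mapDomain_smul, hmap, Finsupp.smul_apply, poleDiv_apply,
      max_eq_right (by have := h.j_reg e he; omega), smul_zero]
  have hmdeg : (m : ℤ) ≤ Divisor.degree (m • poleDiv (K := K) C.j) := by
    rw [map_nsmul, nsmul_eq_mul]
    nlinarith
  have hmcast : (m : ℤ) = 3 * genusFF K E + 2 * genusFF k Eb + 1 := by
    rw [hm]
    push_cast
    ring
  obtain ⟨f, hfL, hfO, hf⟩ := Exists_lift hr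
    (m • poleDiv (K := K) C.j - Finsupp.single (C.P₀ e) (1 : ℤ))
    (by rw [map_sub, hPdeg]; omega) (by rw [map_sub, hPdeg]; omega) {e, e'}
  have hfe : e.ord (R.red f) = 1 := by
    rw [hf e (by simp), mapDomain_sub', Finsupp.sub_apply, hjmap e he, Finsupp.mapDomain_single,
      (C.isCoord.origin e he).1, Finsupp.single_eq_same]
    norm_num
  have hfe' : e'.ord (R.red f) = 0 := by
    rw [hf e' (by simp), mapDomain_sub', Finsupp.sub_apply, hjmap e' he', Finsupp.mapDomain_single,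
      (C.isCoord.origin e he).1, Finsupp.single_eq_of_ne hne.symm]
    norm_num
  have hrf : R.red f ≠ 0 := by
    intro h0
    rw [h0, Place.ord_zero] at hfe
    exact zero_ne_one hfe
  have hf0 : f ≠ 0 := R.ne_zero_of_red_ne_zero hrf
  have hdisc : ∀ e'' ∈ C.SS, f ∈ discRing R C.r e'' := by
    intro e'' he''
    refine ⟨hfO, fun P hP => ?_⟩
    have h1 := (mem_riemannRochSpace_iff.1 hfL P).resolve_left hf0
    have h2 : 0 ≤ P.ord C.j := (CoordDisc5_j_mem hr h he'').2 P hP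
    rw [Finsupp.sub_apply, Finsupp.smul_apply, poleDiv_apply, max_eq_right (by omega), smul_zero,
      zero_sub, neg_neg] at h1
    refine le_trans ?_ h1
    rw [Finsupp.single_apply]
    split_ifs <;> norm_num
  exact ⟨f, hdisc e he, hdisc e' he', hrf, by omega, hfe'⟩

/-- **(S1b)** the valuation rings are pairwise incomparable.
PROOF. Cases. big/big: `h.big_inc`.  big `i` / hor `i'`: `t = C.QF F` (`mem_big_iff`, `C.isCoord.Q_mem`; `IsCoord.Q_not_mem C.redMap C.hyp C.isCoord (h.hor_mem _ _) (h.hor_val _ _)`, membership in a `comap` is `Iff.rfl`).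
hor `i` / big `i'`: `t = C.GF F` (`IsCoord.G_disc` + `IsDiscVal.y_mem` give `G₀/ρ ∈ O`: it is `ε' y + nonunit`; `IsCoord.G_not_mem .. C.ne`).
hor/hor: `he i ≠ he i'` by `h.hor_inj`; `f` from `exists_separating` with `e = he i'`, `e' = he i`; `t = algebraMap (f⁻¹)`: `f ∈ nonunits` of the ring at `i'` (`IsDiscVal.mem_nonunits`), so `f⁻¹ ∉`;
at `i`: `Geo.exists_const_of_mem_discRing` gives `f - γ ∈ nonunits`, `γ` a unit of `A`, so `f` is a unit of the ring at `i`. -/
theorem SemiHyp.inc (h : SemiHyp C T q Φ π hor θ he) (i i' : ι) (hii : i ≠ i') :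
    ∃ t ∈ (T.R i).O, t ∉ (T.R i').O := by
  by_cases hi : hor i
  · by_cases hi' : hor i'
    · -- horizontal / horizontal
      have hne : he i' ≠ he i := fun e => hii (h.hor_inj i i' hi hi' e.symm)
      obtain ⟨f, hf', hf, hfne, hfpos, hf0⟩ :=
        C.exists_separating (h.hor_mem i' hi') (h.hor_mem i hi) hne
      have hO := h.hor_val i hi
      have hO' := h.hor_val i' hi'
      have hd := C.hyp.disc _ (h.hor_mem i hi)
      have hd' := C.hyp.disc _ (h.hor_mem i' hi')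
      have h1 : f ∈ ((T.R i').O.comap (algebraMap E F)).nonunits :=
        hO'.mem_nonunits C.redMap hd' hf' (Or.inr hfpos)
      obtain ⟨γ, hγA, hγ, hγu⟩ := Geo.exists_const_of_mem_discRing C.redMap hd hO hf
      have hγu' := hγu hfne hf0
      have hf0' : f ≠ 0 := R.ne_zero_of_red_ne_zero hfne
      refine ⟨algebraMap E F f⁻¹, ?_, ?_⟩
      · have h2 : f ∉ ((T.R i).O.comap (algebraMap E F)).nonunits := by
          intro h3
          apply hγu'
          rw [← Struct_val_algebraMap_lt hO]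
          have e1 : algebraMap K E γ = f - (f - algebraMap K E γ) := by ring
          rw [e1]
          exact Valuation.map_sub_lt _ ((ValuationSubring.mem_nonunits_iff _).1 h3)
            ((ValuationSubring.mem_nonunits_iff _).1 hγ)
        rw [Basic_mem_nonunits_iff, not_or, not_not] at h2
        exact h2.2
      · intro h3
        rw [Basic_mem_nonunits_iff] at h1
        exact h1.elim hf0' (fun h4 => h4 h3)
    · -- horizontal / big
      refine ⟨C.GF F, ?_, ?_⟩
      · have hO := h.hor_val i hi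
        obtain ⟨ε', hε', -, hG⟩ := C.isCoord.G_disc C.redMap C.hyp (h.hor_mem i hi) hO
        have h1 : algebraMap K E ε' ∈ (T.R i).O.comap (algebraMap E F) := by
          have h0 : ε' ∈ ((T.R i).O.comap (algebraMap E F)).comap (algebraMap K E) := by
            rw [hO.comap]
            exact hε'
          exact h0
        have h2 := ((T.R i).O.comap (algebraMap E F)).add_mem _ _
          (CoordDisc5_mem_of_mem_nonunits hG) (mul_mem h1 hO.y_mem)
        rw [sub_add_cancel] at h2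
        exact h2
      · intro h1
        exact C.isCoord.G_not_mem C.hyp C.ne ((h.mem_big_iff hi' _).1 h1)
  · by_cases hi' : hor i'
    · -- big / horizontal
      refine ⟨C.QF F, (h.mem_big_iff hi _).2 C.isCoord.Q_mem, fun h1 => ?_⟩
      exact C.isCoord.Q_not_mem C.redMap C.hyp (h.hor_mem i' hi') (h.hor_val i' hi') h1
    · exact h.big_inc i i' hi hi' hii

theorem SemiHyp.sep (h : SemiHyp C T q Φ π hor θ he) : T.Sep :=
  sep_of_incomparable T h.inc h.scales h.rankOne

/-- **(S2a)** the coordinate on the big components. (`IsCoord.red_coord`, `h.big_red`, `map_pow`, `h.Φ_j`, `pow_mul`.) -/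
theorem SemiHyp.red_x_big (h : SemiHyp C T q Φ π hor θ he) {i : ι} (hi : ¬ hor i) :
    (T.R i).red (C.xF F) = θ i hi (R.red C.j) ^ (q * C.a) := by
  obtain ⟨h1, h2⟩ := C.isCoord.red_coord C.hyp
  rw [Coord.xF, h.big_red i hi _ h1, h2, map_pow, h.Φ_j, map_pow, map_pow, ← pow_mul]

/-- **(S2b)** the coordinate is not constant on any component.
PROOF. hor: if `red x = algebraMap c` then `poleDiv = 0` (`poleDiv_apply`, `ord_algebraMap`), contradiction with `h.hor_deg` (`q (q+1) > 0`).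
big: `red_x_big`; if `θ (j̄) ^ n` (`n = q a > 0`, `C.isCoord.a_pos`) is constant then all `ord_P (θ j̄) = 0`, so `θ j̄ ∈ L(0)` is constant (`GAL.FF.mem_range_algebraMap_of_mem_L_zero`), `= θ (algebraMap c)`,
and `θ` is injective: contradiction with `C.hyp.j_nonconst`. -/
theorem SemiHyp.nonconst (h : SemiHyp C T q Φ π hor θ he) (hq : 0 < q) (i : ι) :
    (T.R i).red (C.xF F) ∉ Set.range (algebraMap k (Fb i)) := by
  by_cases hi : hor i
  · rintro ⟨c, hc⟩
    have h1 := h.hor_deg i hi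
    have h2 : poleDiv (K := k) (algebraMap k (Fb i) c) = 0 := by
      ext P
      rw [poleDiv_apply, ord_algebraMap]
      simp
    rw [← hc, h2, map_zero] at h1
    have h3 : 0 < q * (q + 1) := by positivity
    have h4 : (0 : ℤ) < ((q * (q + 1) : ℕ) : ℤ) := by exact_mod_cast h3
    omega
  · rw [h.red_x_big hi]
    rintro ⟨c, hc⟩
    have hn : q * C.a ≠ 0 := (Nat.mul_pos hq C.isCoord.a_pos).ne'
    obtain ⟨c', hc'⟩ : θ i hi (R.red C.j) ∈ Set.range (algebraMap k (Fb i)) := by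
      refine mem_range_of_ord_nonneg fun P => ?_
      have h1 := ord_pow P (θ i hi (R.red C.j)) (q * C.a)
      rw [← hc, ord_algebraMap] at h1
      rcases mul_eq_zero.1 h1.symm with h2 | h2
      · exact absurd (by exact_mod_cast h2) hn
      · exact h2.ge
    apply C.hyp.j_nonconst
    refine ⟨c', (θ i hi).toRingHom.injective ?_⟩
    show θ i hi (algebraMap k Eb c') = θ i hi (R.red C.j)
    rw [(θ i hi).commutes, hc']

/-- the numerical part of (S3). -/
theorem NodalSemi4_num {ι : Type} [Fintype ι] (hor : ι → Prop) [DecidablePred hor] (f : ι → ℕ)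
    (D : ι → ℤ) (DF d : ℤ) (q a s : ℕ) (hq : 0 < q) (ha : 0 < a) (hd : 0 < d)
    (hcard : (Finset.univ.filter hor).card = s) (hf : ∀ i, hor i → f i = 0)
    (h1 : DF ≤ ((q * (q + 1) : ℕ) : ℤ) * (a * d + s))
    (h2 : ∑ i, D i ≤ DF)
    (h3 : ∀ i, ¬ hor i → ((q * a : ℕ) : ℤ) * (f i * d) ≤ D i)
    (h4 : ∀ i, hor i → ((q * (q + 1) : ℕ) : ℤ) ≤ D i)
    (h5 : q + 1 ≤ ∑ i, f i) :
    DF = ∑ i, D i ∧ (∑ i, f i) = q + 1 := by
  set S : ℕ := ∑ i, f i with hS
  have key : ((q * (q + 1) : ℕ) : ℤ) * s + ((q * a : ℕ) : ℤ) * d * S ≤ ∑ i, D i := by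
    have e1 : ((q * (q + 1) : ℕ) : ℤ) * s + ((q * a : ℕ) : ℤ) * d * S =
        ∑ i, (if hor i then ((q * (q + 1) : ℕ) : ℤ) else ((q * a : ℕ) : ℤ) * (f i * d)) := by
      have e2 : ∀ i, (if hor i then ((q * (q + 1) : ℕ) : ℤ) else ((q * a : ℕ) : ℤ) * (f i * d)) =
          ((q * (q + 1) : ℕ) : ℤ) * (if hor i then 1 else 0) +
            ((q * a : ℕ) : ℤ) * d * ((f i : ℕ) : ℤ) := by
        intro i
        split_ifs with hi
        · simp [hf i hi]
        · simp
          ring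
      rw [Finset.sum_congr rfl fun i _ => e2 i, Finset.sum_add_distrib, ← Finset.mul_sum,
        ← Finset.mul_sum, Finset.sum_boole, hcard, hS, Nat.cast_sum]
    rw [e1]
    refine Finset.sum_le_sum fun i _ => ?_
    split_ifs with hi
    · exact h4 i hi
    · exact h3 i hi
  have hc : (0 : ℤ) < ((q * a : ℕ) : ℤ) * d := by
    have : 0 < q * a := Nat.mul_pos hq ha
    have : (0 : ℤ) < ((q * a : ℕ) : ℤ) := by exact_mod_cast this
    positivity
  have e3 : ((q * (q + 1) : ℕ) : ℤ) * (a * d + s) =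
      ((q * (q + 1) : ℕ) : ℤ) * s + ((q * a : ℕ) : ℤ) * d * ((q + 1 : ℕ) : ℤ) := by
    push_cast
    ring
  rw [e3] at h1
  have h6 : ((q * a : ℕ) : ℤ) * d * S ≤ ((q * a : ℕ) : ℤ) * d * ((q + 1 : ℕ) : ℤ) := by linarith
  have h7 : (S : ℤ) ≤ ((q + 1 : ℕ) : ℤ) := le_of_mul_le_mul_left h6 hc
  have h8 : S = q + 1 := le_antisymm (by exact_mod_cast h7) h5
  refine ⟨?_, h8⟩
  rw [h8] at key
  linarith

/-- the given algebra structure is the one along `toAlgHom`. -/
theorem NodalSemi4_along (K E F : Type) [Field K] [Field E] [Algebra K E] [Field F] [i : Algebra E F]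
    [Algebra K F] [IsScalarTower K E F] : algebraAlong (IsScalarTower.toAlgHom K E F) = i :=
  Algebra.algebra_ext _ _ fun _ => rfl

open Classical in
/-- **(S3)** the degrees.  `d := deg (j)_∞ = deg (j̄)_∞ > 0`, `n := q (q+1)`, `s := #SS`.
* `deg_F (x)_∞ = [F : E] deg_E (x₁)_∞ ≤ n (a d + s)` (`h.finrank_le`): `degree_poleDiv_along (IsScalarTower.toAlgHom K E F)` (separable: characteristic zero, `Algebra.IsSeparable.of_integral`/`Algebra.IsAlgebraic.isSeparable_of_perfectField`; beware: `algebraAlong (toAlgHom ..)` is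
  defeq to the given algebra structure only propositionally: use `Algebra.algebra_ext` or state everything with `letI`), `IsCoord.degree_poleDiv_le`;
* `∑ᵢ deg (x̄ᵢ)_∞ ≤ deg_F (x)_∞`: `MultiRed.sum_degree_poleDiv_red_le T h.sep _ (h.nonconst hq)`;
* big `i`: `deg (x̄ᵢ)_∞ = q a deg (θᵢ j̄)_∞ ≥ q a fᵢ d` (`red_x_big`, `poleBound_poleDiv_pow`, `finrankAlong_mul_degree_le`);
* hor `i`: `≥ n` (`h.hor_deg`), and there are `s` of them (`he` is a bijection from `{i // hor i}` to `SS`: `hor_mem`, `hor_inj`, `hor_surj`; `Finset.card_bij`/`Finset.card_nbij`).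
Hence `q a d ∑ fᵢ + n s ≤ n (a d + s)`, so `∑ fᵢ ≤ q + 1`; with `h.big_sum` all the inequalities are equalities. -/
theorem SemiHyp.deg (h : SemiHyp C T q Φ π hor θ he) (hq : 0 < q) :
    Divisor.degree (poleDiv (K := K) (C.xF F)) =
        ∑ i, Divisor.degree (poleDiv (K := k) ((T.R i).red (C.xF F))) ∧
      (∑ i, if hi : hor i then 0 else finrankAlong k (θ i hi)) = q + 1 := by
  have hfinEF := h.finite
  have hd : 0 < Divisor.degree (poleDiv (K := k) (R.red C.j)) := degree_poleDiv_pos C.hyp.j_nonconst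
  have hcard : (Finset.univ.filter hor).card = C.SS.card := by
    refine Finset.card_bij (fun i _ => he i) ?_ ?_ ?_
    · intro i hi
      exact h.hor_mem i (Finset.mem_filter.1 hi).2
    · intro i hi i' hi' hii
      exact h.hor_inj i i' (Finset.mem_filter.1 hi).2 (Finset.mem_filter.1 hi').2 hii
    · intro e hmem
      obtain ⟨i, hi, hie⟩ := h.hor_surj e hmem
      exact ⟨i, Finset.mem_filter.2 ⟨Finset.mem_univ _, hi⟩, hie⟩
  refine NodalSemi4_num hor (fun i => if hi : hor i then 0 else finrankAlong k (θ i hi))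
    (fun i => Divisor.degree (poleDiv (K := k) ((T.R i).red (C.xF F)))) _
    (Divisor.degree (poleDiv (K := k) (R.red C.j))) q C.a C.SS.card hq C.isCoord.a_pos hd hcard
    (fun i hi => dif_pos hi) ?_ (MultiRed.sum_degree_poleDiv_red_le T h.sep _ (h.nonconst hq)) ?_ h.hor_deg h.big_sum
  · have e := NodalSemi4_along K E F
    have hfin : FiniteAlong K (IsScalarTower.toAlgHom K E F) := by
      unfold FiniteAlong
      rw [e]
      exact hfinEF
    have hchar : CharZero E := charZero_of_injective_algebraMap (algebraMap K E).injective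
    have hsep : letI := algebraAlong (IsScalarTower.toAlgHom K E F); Algebra.IsSeparable E F := by
      rw [e]
      exact Algebra.IsAlgebraic.isSeparable_of_perfectField
    have hrank : finrankAlong K (IsScalarTower.toAlgHom K E F) = Module.finrank E F := by
      unfold finrankAlong
      rw [e]
    have h1 := degree_poleDiv_along (IsScalarTower.toAlgHom K E F) hfin hsep
      (coordOf C.ρ C.j C.a C.Q)
    have h2 : Divisor.degree (poleDiv (K := K) (C.xF F)) =
        (Module.finrank E F : ℤ) * Divisor.degree (poleDiv (K := K) (coordOf C.ρ C.j C.a C.Q)) := by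
      rw [← hrank, ← h1]
      rfl
    have h3 := C.isCoord.degree_poleDiv_le (ρ := C.ρ)
    rw [C.hyp.j_deg] at h3
    have h4 : (Module.finrank E F : ℤ) ≤ ((q * (q + 1) : ℕ) : ℤ) := by exact_mod_cast h.finrank_le
    have h5 : 0 ≤ (C.a : ℤ) * Divisor.degree (poleDiv (K := k) (R.red C.j)) + C.SS.card := by
      positivity
    rw [h2]
    calc (Module.finrank E F : ℤ) * Divisor.degree (poleDiv (K := K) (coordOf C.ρ C.j C.a C.Q))
        ≤ (Module.finrank E F : ℤ) *
          ((C.a : ℤ) * Divisor.degree (poleDiv (K := k) (R.red C.j)) + C.SS.card) :=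
          mul_le_mul_of_nonneg_left h3 (by positivity)
      _ ≤ _ := mul_le_mul_of_nonneg_right h4 h5
  · intro i hi
    show _ ≤ Divisor.degree (poleDiv (K := k) ((T.R i).red (C.xF F)))
    rw [h.red_x_big hi, poleBound_poleDiv_pow, map_nsmul, nsmul_eq_mul, dif_neg hi]
    exact mul_le_mul_of_nonneg_left
      (finrankAlong_mul_degree_le (θ i hi) (h.big_fin i hi) (R.red C.j) C.hyp.j_nonconst)
      (by positivity)

/-- (aux S4) transport of "regular outside the poles of `x₁`" from `E` to `F`. -/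
theorem SemiNH_transport [FiniteDimensional E F] {x₁ y : E}
    (hy : ∃ n : ℕ, y ∈ riemannRochSpace (n • poleDiv (K := K) x₁)) :
    ∃ n : ℕ, algebraMap E F y ∈ riemannRochSpace (n • poleDiv (K := K) (algebraMap E F x₁)) := by
  have : Algebra.IsIntegral E F := Algebra.IsIntegral.of_finite E F
  rw [exists_mem_L_poleDiv_iff] at hy ⊢
  intro w hw
  rw [← Lib.PlaceEval.mem_iff] at hw ⊢
  have h1 : x₁ ∈ (w.restrict E).toValuationSubring := hw
  rw [Lib.PlaceEval.mem_iff] at h1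
  have h2 := hy _ h1
  rw [← Lib.PlaceEval.mem_iff] at h2
  exact h2

/-- (aux S4) `ρ • algebraMap y = algebraMap (ρ y)`. -/
theorem SemiNH_smul (c : K) (y : E) :
    c • algebraMap E F y = algebraMap E F (algebraMap K E c * y) := by
  rw [Algebra.smul_def, map_mul, ← IsScalarTower.algebraMap_apply]

/-- (aux S4) the situation on a horizontal component, at the level of `E`. -/
theorem SemiNH_hor (C : Coord R) {e : Place k Eb} (he : e ∈ C.SS) {O : ValuationSubring E}
    (hO : IsDiscVal R C.r e (C.xe e) C.ρ O) :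
    (algebraMap K E C.ρ)⁻¹ * C.G₀ ∈ O ∧ algebraMap K E C.ρ * C.Q ∈ O ∧
      ∃ η ∈ R.A, η ∉ R.A.nonunits ∧
        (algebraMap K E C.ρ * C.Q) * ((algebraMap K E C.ρ)⁻¹ * C.G₀) - algebraMap K E η
          ∈ O.nonunits := by
  have hρ0 : algebraMap K E C.ρ ≠ 0 := by
    rw [Ne, map_eq_zero]
    exact C.hyp.ρ_ne
  have hAO : ∀ γ ∈ R.A, algebraMap K E γ ∈ O := by
    intro γ hγ
    rw [← hO.comap] at hγ
    exact hγ
  obtain ⟨ε, hε, hεu, hQ⟩ := C.isCoord.Q_disc C.redMap C.hyp he hO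
  obtain ⟨ε', hε', hεu', hG⟩ := C.isCoord.G_disc C.redMap C.hyp he hO
  set y : E := (algebraMap K E C.ρ)⁻¹ * C.xe e with hy
  have hyO : y ∈ O := hO.y_mem
  have hyu : y ∉ O.nonunits := by
    have h4 := hO.y_trans Polynomial.X ⟨fun i => ?_, 1, ?_⟩
    · rwa [Polynomial.aeval_X] at h4
    · rw [Polynomial.coeff_X]
      split_ifs
      · exact R.A.one_mem
      · exact R.A.zero_mem
    · rw [Polynomial.coeff_X_one, ValuationSubring.mem_nonunits_iff, map_one]
      exact lt_irrefl _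
  have hyinv : y⁻¹ ∈ O := by
    rw [Basic_mem_nonunits_iff, not_or, not_not] at hyu
    exact hyu.2
  have hy0 : y ≠ 0 := by
    rw [Basic_mem_nonunits_iff, not_or] at hyu
    exact hyu.1
  have hx0 : C.xe e ≠ 0 := by
    intro h0
    apply hy0
    rw [hy, h0, mul_zero]
  have hGO : (algebraMap K E C.ρ)⁻¹ * C.G₀ ∈ O := by
    have := O.add_mem _ _ (CoordDisc5_mem_of_mem_nonunits hG) (O.mul_mem _ _ (hAO ε' hε') hyO)
    rwa [sub_add_cancel] at this
  have hxQ : C.xe e * C.Q ∈ O := by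
    have := O.add_mem _ _ (CoordDisc5_mem_of_mem_nonunits hQ) (hAO ε hε)
    rwa [sub_add_cancel] at this
  have eρQ : algebraMap K E C.ρ * C.Q = (C.xe e * C.Q) * y⁻¹ := by
    rw [hy]
    field_simp
  have hρQ : algebraMap K E C.ρ * C.Q ∈ O := by
    rw [eρQ]
    exact O.mul_mem _ _ hxQ hyinv
  refine ⟨hGO, hρQ, ε * ε', R.A.mul_mem _ _ hε hε', ?_, ?_⟩
  · intro hcon
    rw [Points_mem_nonunits_iff (R.A.mul_mem _ _ hε hε'), R.redA_mul hε hε'] at hcon
    rcases mul_eq_zero.1 hcon with h0 | h0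
    · exact hεu ((Points_mem_nonunits_iff hε).2 h0)
    · exact hεu' ((Points_mem_nonunits_iff hε').2 h0)
  · -- `(ρ Q)(G₀/ρ) - ε ε' = (xe Q) y⁻¹ (G₀/ρ - ε' y) + ε' (xe Q - ε)`
    have e1 : (algebraMap K E C.ρ * C.Q) * ((algebraMap K E C.ρ)⁻¹ * C.G₀) - algebraMap K E (ε * ε')
        = ((algebraMap K E C.ρ)⁻¹ * C.G₀ - algebraMap K E ε' * y) * ((C.xe e * C.Q) * y⁻¹) +
          (C.xe e * C.Q - algebraMap K E ε) * algebraMap K E ε' := by
      rw [eρQ, map_mul]
      field_simp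
      ring
    rw [e1]
    exact CoordDisc5_add_mem_nonunits
      (CoordDisc5_mul_mem_nonunits hG (O.mul_mem _ _ hxQ hyinv))
      (CoordDisc5_mul_mem_nonunits hQ (hAO ε' hε'))

/-- **(S4)** the hypotheses of the abstract theorem.
PROOF. `sep`, `scales`, `rankOne`, `nonconst`, `deg`: above.  `Q_reg`, `G_reg`: `IsCoord.exists_mem_L_Q` at the level of `E`, `Submodule.smul_mem` for `ρ⁻¹`, and transport to `F` by `exists_mem_L_poleDiv_iff` (`DR/Abs`):
a place `w` of `F` with `0 ≤ ord_w (algebraMap x₁)` restricts to `v = w.restrict E` with `0 ≤ ord_v x₁` (`Place.ord_restrict`, `Place.ramificationIndex_pos`), so `0 ≤ ord_v y`, so `0 ≤ ord_w (algebraMap y)`.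
`ρ_mem`, `ρ_small`: `C.hyp.ρ_small`, `Points_small` (as in `IsCoord.red_coord`), `h.A_eq`, `h.redA_eq`.  `ρ • algebraMap E F y = algebraMap E F (algebraMap K E ρ * y)` (`Algebra.smul_def`, `IsScalarTower.algebraMap_apply`).
`Q_big`, `ρG_big`, `G_big`: `mem_big_iff`, `C.isCoord.Q_mem`, `G_mem`, `IsCoord.G_not_mem`.  `G_hor`, `Q_hor`: as in `SemiHyp.inc`.
`ρQ_hor`, `prod_hor`: in `O := comap`, `y := ρ⁻¹ xe` is a unit (`IsDiscVal.y_mem`, `y_trans` with `G = X`), `xe Q ≡ ε` (`IsCoord.Q_disc`), so `ρ Q = (xe Q) / y ∈ O`; `G₀/ρ ≡ ε' y` (`G_disc`); so `(ρ Q)(G₀/ρ) ≡ ε ε'`,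
a unit of `A`; reduce with `RedData.red_mul`, `red_algebraMap`; `c := T.redA (ε ε') ≠ 0`. -/
theorem SemiHyp.nodalHyp (h : SemiHyp C T q Φ π hor θ he) (hq : 0 < q) :
    NodalHyp T hor (C.xF F) (C.QF F) (C.GF F) C.ρ := by
  have hfin := h.finite
  obtain ⟨hρA, hρ0⟩ := Points_small C.hyp.ρ_small
  have hρne : algebraMap K E C.ρ ≠ 0 := by
    rw [Ne, map_eq_zero]
    exact C.hyp.ρ_ne
  obtain ⟨hQL, hGL, -⟩ := C.isCoord.exists_mem_L_Q C.redMap C.hyp
  have eρG : C.ρ • C.GF F = algebraMap E F C.G₀ := by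
    rw [Coord.GF, SemiNH_smul, ← mul_assoc, mul_inv_cancel₀ hρne, one_mul]
  refine
    { sep := h.sep
      scales := h.scales
      rankOne := h.rankOne
      nonconst := h.nonconst hq
      deg := (h.deg hq).1
      Q_reg := SemiNH_transport hQL
      G_reg := ?_
      ρ_mem := by rw [h.A_eq]; exact hρA
      ρ_small := by rw [h.redA_eq]; exact hρ0
      Q_big := fun i hi => (h.mem_big_iff hi _).2 C.isCoord.Q_mem
      ρG_big := fun i hi => by rw [eρG]; exact (h.mem_big_iff hi _).2 C.isCoord.G_mem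
      G_big := fun i hi hmem => C.isCoord.G_not_mem C.hyp C.ne ((h.mem_big_iff hi _).1 hmem)
      G_hor := fun i hi => (SemiNH_hor C (h.hor_mem i hi) (h.hor_val i hi)).1
      ρQ_hor := fun i hi => by
        rw [Coord.QF, SemiNH_smul]
        exact (SemiNH_hor C (h.hor_mem i hi) (h.hor_val i hi)).2.1
      Q_hor := fun i hi hmem =>
        C.isCoord.Q_not_mem C.redMap C.hyp (h.hor_mem i hi) (h.hor_val i hi) hmem
      prod_hor := ?_ }
  · apply SemiNH_transport
    obtain ⟨n, hn⟩ := hGL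
    refine ⟨n, ?_⟩
    have e : (algebraMap K E C.ρ)⁻¹ * C.G₀ = C.ρ⁻¹ • C.G₀ := by
      rw [Algebra.smul_def, map_inv₀]
    rw [e]
    exact Submodule.smul_mem _ _ hn
  · intro i hi
    obtain ⟨hG, hQ, η, hη, hηu, hsub⟩ := SemiNH_hor C (h.hor_mem i hi) (h.hor_val i hi)
    have hG' : C.GF F ∈ (T.R i).O := hG
    have hQ' : C.ρ • C.QF F ∈ (T.R i).O := by
      rw [Coord.QF, SemiNH_smul]
      exact hQ
    refine ⟨T.redA η, ?_, ?_⟩
    · rw [h.redA_eq]
      intro h0
      exact hηu ((Points_mem_nonunits_iff hη).2 h0)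
    · rw [← (T.R i).red_mul hQ' hG']
      rw [mem_nonunits_comap_iff, map_sub, ← IsScalarTower.algebraMap_apply,
        ValuationSubring.mem_nonunits_iff] at hsub
      have hηO : algebraMap K F η ∈ (T.R i).O :=
        (T.R i).algebraMap_mem _ ((T.mem_A_iff i).2 (by rw [h.A_eq]; exact hη))
      have hprodO : C.ρ • C.QF F * C.GF F ∈ (T.R i).O := (T.R i).O.mul_mem _ _ hQ' hG'
      have e2 : algebraMap E F ((algebraMap K E C.ρ * C.Q) * ((algebraMap K E C.ρ)⁻¹ * C.G₀)) =
          C.ρ • C.QF F * C.GF F := by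
        rw [map_mul, Coord.QF, SemiNH_smul, Coord.GF]
      rw [e2] at hsub
      have h3 : (T.R i).red (C.ρ • C.QF F * C.GF F - algebraMap K F η) = 0 :=
        ((T.R i).red_eq_zero_iff ((T.R i).O.sub_mem hprodO hηO)).2 hsub
      rw [(T.R i).red_sub hprodO hηO, sub_eq_zero] at h3
      rw [h3, (T.R i).red_algebraMap', T.redA_eq]

open Classical in
/-- (aux S5) the number of horizontal components. -/
theorem SemiNum_card_hor (h : SemiHyp C T q Φ π hor θ he) :
    (Finset.univ.filter hor).card = C.SS.card := by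
  apply Finset.card_bij (fun i _ => he i)
  · intro i hi
    exact h.hor_mem i (Finset.mem_filter.1 hi).2
  · intro i hi i' hi' e
    exact h.hor_inj i i' (Finset.mem_filter.1 hi).2 (Finset.mem_filter.1 hi').2 e
  · intro e he'
    obtain ⟨i, hi, rfl⟩ := h.hor_surj e he'
    exact ⟨i, Finset.mem_filter.2 ⟨Finset.mem_univ _, hi⟩, rfl⟩

/-- (aux S5) -/
theorem SemiNum_finrank_pos {L : Type} [Field L] [Algebra k L] (θ₀ : Eb →ₐ[k] L)
    (hfin : FiniteAlong k θ₀) : 0 < finrankAlong k θ₀ := by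
  let _ := algebraAlong θ₀
  have : Module.Finite Eb L := hfin
  exact Module.finrank_pos

open Classical in
/-- (aux S5) the degrees of the big components are `< q`. -/
theorem SemiNum_finrank_lt (h : SemiHyp C T q Φ π hor θ he) (hq : 0 < q) {i : ι} (hi : ¬ hor i) :
    finrankAlong k (θ i hi) < q := by
  obtain ⟨i₁, i₂, i₃, h1, h2, h3, h12, h13, h23⟩ := h.big_three
  have hsum := (h.deg hq).2
  set g : ι → ℕ := fun l => if hl : hor l then 0 else finrankAlong k (θ l hl) with hg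
  have hgpos : ∀ l, ¬ hor l → 1 ≤ g l := fun l hl => by
    simp only [hg, dif_neg hl]
    exact SemiNum_finrank_pos _ (h.big_fin l hl)
  have key : ∀ a b : ι, ¬ hor a → ¬ hor b → a ≠ b → a ≠ i → b ≠ i → g i + 2 ≤ q + 1 := by
    intro a b ha hb hab hai hbi
    have hsub : ∑ l ∈ ({i, a, b} : Finset ι), g l ≤ ∑ l, g l :=
      Finset.sum_le_sum_of_subset (Finset.subset_univ _)
    rw [Finset.sum_insert (by simp [hai.symm, hbi.symm]), Finset.sum_insert (by simp [hab]),
      Finset.sum_singleton, hsum] at hsub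
    have := hgpos a ha
    have := hgpos b hb
    omega
  have hgi : g i = finrankAlong k (θ i hi) := by simp only [hg, dif_neg hi]
  rw [← hgi]
  by_cases e1 : i₁ = i
  · have := key i₂ i₃ h2 h3 h23 (by rw [← e1]; exact h12.symm) (by rw [← e1]; exact h13.symm)
    omega
  · by_cases e2 : i₂ = i
    · have := key i₁ i₃ h1 h3 h13 e1 (by rw [← e2]; exact h23.symm)
      omega
    · have := key i₁ i₂ h1 h2 h12 e1 e2
      omega

/-- (aux S5) the branches on a big component. -/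
theorem SemiNum_big [Fact q.Prime] [CharP k q] (h : SemiHyp C T q Φ π hor θ he) {i : ι}
    (hi : ¬ hor i) :
    ∃ B : Finset (Place k (Fb i)), (∀ P ∈ B, IsBr T hor (C.xF F) (C.QF F) (C.GF F) ⟨i, P⟩) ∧
      (finrankAlong k (θ i hi) : ℤ) * (2 * (genusFF k Eb : ℤ) - 2 + C.SS.card) ≤
        (B.card : ℤ) + (2 * (genusFF k (Fb i) : ℤ) - 2) := by
  have hq : 0 < q := (Fact.out : q.Prime).pos
  have hsep : letI := algebraAlong (θ i hi); Algebra.IsSeparable Eb (Fb i) := by
    let _ := algebraAlong (θ i hi)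
    have : Module.Finite Eb (Fb i) := h.big_fin i hi
    have : CharP Eb q := charP_of_injective_algebraMap (algebraMap k Eb).injective q
    exact Norm.isSeparable_of_finrank_lt q (SemiNum_finrank_lt h hq hi)
  obtain ⟨S, hS, hcard⟩ := rh_count_along (θ i hi) (h.big_fin i hi) hsep
    (C.SS.map π.symm.toEmbedding)
  rw [Finset.card_map] at hcard
  refine ⟨S, fun w hw => ?_, hcard⟩
  obtain ⟨v, hv, e, he0, hord⟩ := hS w hw
  obtain ⟨e₀, he₀, rfl⟩ := Finset.mem_map.1 hv
  have hπ : π (π.symm.toEmbedding e₀) = e₀ := π.apply_symm_apply e₀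
  obtain ⟨hxO, hxred⟩ := C.isCoord.red_coord C.hyp
  have he0' : (0 : ℤ) < e := by exact_mod_cast he0
  have hq' : (0 : ℤ) < q := by exact_mod_cast hq
  refine ⟨?_, Or.inr ⟨hi, ?_⟩⟩
  · show 0 ≤ w.ord ((T.R i).red (C.xF F))
    rw [Coord.xF, h.big_red i hi _ hxO, hord, h.Φ_ord, hπ, hxred, ord_pow]
    have := C.hyp.j_reg e₀ he₀
    positivity
  · show w.ord ((T.R i).red (C.QF F)) < 0
    rw [Coord.QF, h.big_red i hi _ C.isCoord.Q_mem, hord, h.Φ_ord, hπ, C.isCoord.Q_ord e₀ he₀]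
    have : (0 : ℤ) < e * q := mul_pos he0' hq'
    linarith

/-- **(S5)** there are enough branches.
PROOF. By (S3) `∑_{big} fᵢ = q + 1`; `fᵢ ≥ 1` (`Module.finrank_pos`) and there are at least three big components, so `fᵢ ≤ q - 1 < q`: `θᵢ` is separable (`Norm.isSeparable_of_finrank_lt q`, `CharP Eb q` from `CharP k q`: `charP_of_injective_algebraMap`).
`Z := C.SS.map π.symm` (`#Z = s`).  For big `i`, `B i := S` from `rh_count_along (θ i) _ _ Z`: for `w ∈ S` over `v = π⁻¹ e`: `red_i (QF) = θᵢ (Φ Q̄)` (`h.big_red`), `ord_w = e_w * q * ord_e Q̄ = - e_w q < 0` (`h.Φ_ord`, `C.isCoord.Q_ord`);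
`red_i x = θᵢ (Φ (j̄ ^ a))`, `ord_w = e_w q a ord_e j̄ ≥ 0` (`C.hyp.j_reg`).  `#B i + 2 gᵢ - 2 ≥ fᵢ (2 g' - 2 + s)`.  For hor `i`: `h.hor_num`; there are `s` of them.
Sum: `≥ (q+1)(2 g' - 2 + s) + s (q+1)`; `h.genus`. -/
theorem SemiHyp.num [Fact q.Prime] [CharP k q] (h : SemiHyp C T q Φ π hor θ he) :
    ∃ B : ∀ i, Finset (Place k (Fb i)),
      (∀ i, ∀ P ∈ B i, IsBr T hor (C.xF F) (C.QF F) (C.GF F) ⟨i, P⟩) ∧
      2 * ((genusFF K F : ℤ) - 1) ≤
        ∑ i, (((B i).card : ℤ) + 2 * ((genusFF k (Fb i) : ℤ) - 1)) := by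
  classical
  have hq : 0 < q := (Fact.out : q.Prime).pos
  set W : ℤ := 2 * (genusFF k Eb : ℤ) - 2 + C.SS.card with hW
  have key : ∀ i, ∃ B : Finset (Place k (Fb i)),
      (∀ P ∈ B, IsBr T hor (C.xF F) (C.QF F) (C.GF F) ⟨i, P⟩) ∧
      (if hi : hor i then ((q + 1 : ℕ) : ℤ) else (finrankAlong k (θ i hi) : ℤ) * W) ≤
        (B.card : ℤ) + 2 * ((genusFF k (Fb i) : ℤ) - 1) := by
    intro i
    by_cases hi : hor i
    · obtain ⟨B, hB, hc⟩ := h.hor_num i hi
      refine ⟨B, fun P hP => ⟨(hB P hP).1, Or.inl ⟨hi, (hB P hP).2⟩⟩, ?_⟩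
      rw [dif_pos hi]
      exact hc
    · obtain ⟨B, hB, hc⟩ := SemiNum_big h hi
      refine ⟨B, hB, ?_⟩
      rw [dif_neg hi]
      linarith
  choose B hB hc using key
  refine ⟨B, hB, ?_⟩
  have h1 := Finset.sum_le_sum (fun i (_ : i ∈ Finset.univ) => hc i)
  have h2 : ∑ i, (if hi : hor i then ((q + 1 : ℕ) : ℤ) else (finrankAlong k (θ i hi) : ℤ) * W) =
      ((q + 1 : ℕ) : ℤ) * C.SS.card + ((q + 1 : ℕ) : ℤ) * W := by
    have e : ∀ i, (if hi : hor i then ((q + 1 : ℕ) : ℤ) else (finrankAlong k (θ i hi) : ℤ) * W) =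
        (if hor i then ((q + 1 : ℕ) : ℤ) else 0) +
          ((if hi : hor i then 0 else finrankAlong k (θ i hi) : ℕ) : ℤ) * W := by
      intro i
      by_cases hi : hor i <;> simp [hi]
    rw [Finset.sum_congr rfl (fun i _ => e i), Finset.sum_add_distrib, ← Finset.sum_mul,
      ← Nat.cast_sum, (h.deg hq).2, ← Finset.sum_filter, Finset.sum_const, SemiNum_card_hor h,
      nsmul_eq_mul]
    ring
  have h3 := h.genus
  rw [h2] at h1
  rw [hW] at h1
  linarith

/-- **The stable fibre is nodal.** -/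
theorem SemiHyp.main [Fact q.Prime] [CharP k q] (h : SemiHyp C T q Φ π hor θ he) :
    ∃ (Cl : Type) (_ : Fintype Cl) (N : NodeData k Fb Cl) (c₀ : K) (a₀ : ℕ), c₀ ∈ T.A ∧
      IsPreNodal T (C.xF F - algebraMap K F c₀) N a₀ ∧
      (∀ l, hor (N.i₁ l)) ∧ (∀ l, ¬ hor (N.i₂ l)) ∧
      (∀ l, GluedAt T (C.xF F) (N.p₁ l) (N.p₂ l)) ∧
      Function.Injective N.branch ∧
      (∀ t, IsBr T hor (C.xF F) (C.QF F) (C.GF F) t ↔ t ∈ Set.range N.branch) ∧
      (Fintype.card Cl : ℤ) + ∑ i, ((genusFF k (Fb i) : ℤ) - 1) = (genusFF K F : ℤ) - 1 := by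
  obtain ⟨B, hB, hnum⟩ := h.num
  obtain ⟨i₁, -⟩ := h.big_three
  have : Nonempty ι := ⟨i₁⟩
  obtain ⟨Cl, fCl, N, c₀, a₀, h1, h2, h3, h4, h5, h6, h7, -, h9⟩ :=
    (h.nodalHyp (Fact.out : q.Prime).pos).main B hB hnum
  exact ⟨Cl, fCl, N, c₀, a₀, h1, h2, h3, h4, h5, h6, h7, h9⟩

end Fermat.Agent.S36.Nodal
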